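import Fermat.Agent.Lower.Lift.HopAsm.Matrix
import Fermat.Agent.Lower.Lift.Construct

/-!
# The hop from lattices and degeneracy matrices

`HopMats` holds the matrices `ι`, `π` between lattices at levels `N` and `N q` and a split kernel
of `π`, with `π ι = [[q + 1, T_q], [T_q, q + 1]]`.  The kernel carries the lattice of the new part
(`HopMats.new`), and `HopMats.hop` assembles the `Hop` from the Galois representations of the
three lattices.
-/

set_option autoImplicit false
set_option linter.unusedSectionVars false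
set_option linter.style.haveILetI false

noncomputable section

open scoped Matrix

namespace FLTAgent.Lower.Lift.HopAsm

open FLTAgent.Lower.Levels
open FLTAgent.Lower
open IsLocalRing (ResidueField maximalIdeal residue)

local notation "ℚ̄" => AlgebraicClosure ℚ
local notation "Γℚ" => (AlgebraicClosure ℚ ≃ₐ[ℚ] AlgebraicClosure ℚ)

theorem levelPrimes_subset_mul (p : ℕ) {N q : ℕ} [NeZero (N * q)] :
    levelPrimes p N ⊆ levelPrimes p (N * q) :=
  Finset.insert_subset_insert _ (Nat.primeFactors_mono (dvd_mul_right N q) (NeZero.ne _))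

variable {O : Type} [CommRing O] [IsDomain O] [IsDiscreteValuationRing O]
  [IsAdicComplete (maximalIdeal O) O] [Finite (ResidueField O)] [CharZero O]
  {p : ℕ} [Fact p.Prime] {ρbar : ResidualGaloisRep (ResidueField O)}

section Hop

variable {N q : ℕ} [NeZero N] [NeZero (N * q)] {d₀ d₁ : ℕ} [NeZero d₀] [NeZero d₁]

/-- The matrices of raising `q`, between lattices at levels `N` and `N q`. -/
structure HopMats (X₀ : HeckeLattice p N (levelPrimes p N) ρbar O d₀)
    (X₁ : HeckeLattice p (N * q) (levelPrimes p (N * q)) ρbar O d₁) : Type where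
  dNew : ℕ
  ι : Matrix (Fin d₁) (Fin d₀ × Fin 2) O
  π : Matrix (Fin d₀ × Fin 2) (Fin d₁) O
  j : Matrix (Fin d₁) (Fin dNew) O
  t : Matrix (Fin dNew) (Fin d₁) O
  π_surjective : ∃ s : Matrix (Fin d₁) (Fin d₀ × Fin 2) O, π * s = 1
  ι_split : ∃ s : Matrix (Fin d₀ × Fin 2) (Fin d₁) O, s * ι = 1
  t_j : t * j = 1
  π_j : π * j = 0
  exact : ∀ x : Fin d₁ → O, π *ᵥ x = 0 → ∃ y, j *ᵥ y = x
  ι_comm : ∀ s, X₁.act s * ι = ι * Matrix.blockDiagonal fun _ : Fin 2 =>
    X₀.act (MvPolynomial.rename (HeckeLattice.awayMap (levelPrimes_subset_mul p)) s)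
  π_comm : ∀ s, (Matrix.blockDiagonal fun _ : Fin 2 =>
    X₀.act (MvPolynomial.rename (HeckeLattice.awayMap (levelPrimes_subset_mul p)) s)) * π =
      π * X₁.act s
  /-- The operator `T_q` of the old ring. -/
  tq : X₀.T
  π_ι : π * ι = Matrix.of fun a b =>
    HopQ.eMat ((q : O) + 1) (imgAct X₀.act tq) a.2 b.2 a.1 b.1
  π_ι_ne_zero : (π * ι).det ≠ 0
  det_mem : (hopE q tq).det ∈ maximalIdeal X₀.T

variable {X₀ : HeckeLattice p N (levelPrimes p N) ρbar O d₀}
  {X₁ : HeckeLattice p (N * q) (levelPrimes p (N * q)) ρbar O d₁} (D : HopMats X₀ X₁)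

theorem HopMats.stable (s : MvPolynomial (AwayIdx (levelPrimes p (N * q))) O) :
    D.j * (D.t * (X₁.act s * D.j)) = X₁.act s * D.j := by
  refine Matrix.ext_iff_mulVec.mpr fun v => ?_
  obtain ⟨y, hy⟩ := D.exact ((X₁.act s * D.j) *ᵥ v) (by
    rw [Matrix.mulVec_mulVec, ← Matrix.mul_assoc, ← D.π_comm, Matrix.mul_assoc, D.π_j,
      Matrix.mul_zero, Matrix.zero_mulVec])
  rw [← Matrix.mulVec_mulVec, ← Matrix.mulVec_mulVec, ← hy, Matrix.mulVec_mulVec y D.t, D.t_j,
    Matrix.one_mulVec]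

/-- The composite as an operator of the old ring. -/
theorem HopMats.π_ι_eq : D.π * D.ι = Matrix.of fun a b =>
    imgAct X₀.act (hopE q D.tq a.2 b.2) a.1 b.1 := by
  rw [D.π_ι]
  ext a b
  simp only [Matrix.of_apply, map_hopE]

/-- At a prime outside the family the residual congruence makes the determinant small. -/
theorem det_hopE_mem_of_residual {S : Finset ℕ} {M : ℕ} [NeZero M] {d : ℕ} [NeZero d]
    (X : HeckeLattice p M S ρbar O d) (hq : q.Prime) (hqS : q ∉ S)
    (h : X.θ (awayIdx hq hqS) ^ 2 = ((q : ResidueField O) + 1) ^ 2) :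
    (hopE q (X.op (awayIdx hq hqS))).det ∈ maximalIdeal X.T := by
  rw [← IsLocalRing.residue_eq_zero_iff, det_hopE, map_sub, map_pow, map_pow, map_add, map_natCast,
    map_one, X.residue_op, ← map_pow, h, map_pow, map_add, map_natCast, map_one, sub_self]

instance HopMats.neZero_dNew : NeZero D.dNew := by
  refine ⟨fun h0 => ?_⟩
  refine IsLocalRing.notMem_maximalIdeal.mpr ?_ D.det_mem
  refine isUnit_det_of_iso (imgAct X₀.act) (imgAct_injective X₀.act) q _ D.π_surjective D.ι_split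
    (fun x hx => ?_) D.π_ι_eq
  obtain ⟨y, rfl⟩ := D.exact x hx
  haveI : IsEmpty (Fin D.dNew) := by rw [h0]; infer_instance
  rw [Subsingleton.elim y 0, Matrix.mulVec_zero]

/-- The lattice of the new part. -/
def HopMats.new : HeckeLattice p (N * q) (levelPrimes p (N * q)) ρbar O D.dNew :=
  subLattice X₁ D.j D.t D.t_j D.stable

include D in
theorem HopMats.ker_old (s : MvPolynomial (AwayIdx (levelPrimes p (N * q))) O)
    (hs : X₁.act s = 0) :
    X₀.act (MvPolynomial.rename (HeckeLattice.awayMap (levelPrimes_subset_mul p)) s) = 0 :=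
  eq_zero_of_blockDiagonal_mul D.π_surjective (by rw [D.π_comm, hs, Matrix.mul_zero])

theorem HopMats.ker_new (s : MvPolynomial (AwayIdx (levelPrimes p (N * q))) O)
    (hs : X₁.act s = 0) :
    D.new.act (MvPolynomial.rename (HeckeLattice.awayMap subset_rfl) s) = 0 := by
  show HopTW.subAct X₁.act D.j D.t D.t_j D.stable _ = 0
  rw [show HeckeLattice.awayMap (subset_rfl (a := levelPrimes p (N * q))) = id from rfl,
    MvPolynomial.rename_id, AlgHom.id_apply, HopTW.subAct_apply, hs, Matrix.zero_mul,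
    Matrix.mul_zero]

/-- The map to the old ring. -/
def HopMats.resOld : X₁.T →ₐ[O] X₀.T := HeckeLattice.map (levelPrimes_subset_mul p) D.ker_old

/-- The map to the new ring. -/
def HopMats.resNew : X₁.T →ₐ[O] D.new.T := HeckeLattice.map subset_rfl D.ker_new

theorem HopMats.ι_comm' (t : X₁.T) : imgAct X₁.act t * D.ι = D.ι *
    (Matrix.blockDiagonal fun _ => imgAct X₀.act (D.resOld t) :
      Matrix (Fin d₀ × Fin 2) (Fin d₀ × Fin 2) O) := by
  obtain ⟨s, rfl⟩ := Ideal.Quotient.mk_surjective t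
  rw [HopMats.resOld, HeckeLattice.map_mk]
  simp only [imgAct_mk]
  exact D.ι_comm s

theorem HopMats.π_comm' (t : X₁.T) : (Matrix.blockDiagonal fun _ => imgAct X₀.act (D.resOld t) :
    Matrix (Fin d₀ × Fin 2) (Fin d₀ × Fin 2) O) * D.π = D.π * imgAct X₁.act t := by
  obtain ⟨s, rfl⟩ := Ideal.Quotient.mk_surjective t
  rw [HopMats.resOld, HeckeLattice.map_mk]
  simp only [imgAct_mk]
  exact D.π_comm s

theorem HopMats.j_comm' (t : X₁.T) :
    imgAct X₁.act t * D.j = D.j * imgAct D.new.act (D.resNew t) := by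
  obtain ⟨s, rfl⟩ := Ideal.Quotient.mk_surjective t
  rw [HopMats.resNew, HeckeLattice.map_mk]
  simp only [imgAct_mk]
  rw [show HeckeLattice.awayMap (subset_rfl (a := levelPrimes p (N * q))) = id from rfl,
    MvPolynomial.rename_id, AlgHom.id_apply]
  exact subLattice_act_mul X₁ D.j D.t D.t_j D.stable s

/-- The identity `trace(Frob_q) = T_q` makes the determinant of the composite special. -/
theorem divBySpecial_hopE {M : ℕ} [NeZero M] {S : Finset ℕ} {R : Type} [CommRing R] [Algebra O R]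
    [Nontrivial R] [Module.Finite O R] {d : ℕ} [NeZero d] {X : HeckeLattice p M S ρbar R d}
    {f : ℤ_[p] →+* O} {ρ : GaloisRepAdic X.T} (h : X.IsRep f ρ) (hq : q.Prime) (hqS : q ∉ S) :
    DivBySpecial q ρ (hopE q (X.op (awayIdx hq hqS))).det := by
  intro A φ hA hφ
  rw [h.trace_frobenius (awayIdx hq hqS) hA hφ, det_hopE]
  exact ⟨-1, by ring⟩

variable {f : ℤ_[p] →+* O} {locOld locNew : LocalType}

/-- **The hop.** -/
def HopMats.hop (habs : ρbar.IsAbsolutelyIrreducible) {ρ₀ : GaloisRepAdic X₀.T}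
    (h₀ : X₀.IsRep f ρ₀) (c₀ : Cond locOld p (unipPrimes p N) (levelPrimes p N) ρ₀)
    {ρ₁ : GaloisRepAdic X₁.T} (h₁ : X₁.IsRep f ρ₁)
    (c₁ : Cond anyType p (unipPrimes p (N * q)) (levelPrimes p (N * q)) ρ₁)
    {ρ₂ : GaloisRepAdic D.new.T} (h₂ : D.new.IsRep f ρ₂)
    (c₂ : Cond locNew p (unipPrimes p (N * q)) (levelPrimes p (N * q)) ρ₂)
    (hdiv : q ≠ p → DivBySpecial q ρ₀ (hopE q D.tq).det)
    (hsp : q ≠ p → IsSpecial q ρ₂) : Hop locOld locNew p N q ρbar where
  old := heckeModOf X₀ ρ₀ h₀ c₀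
  all := heckeModOf X₁ ρ₁ h₁ c₁
  new := heckeModOf D.new ρ₂ h₂ c₂
  resOld := D.resOld
  resOld_isLocalHom := HeckeLattice.isLocalHom_map _ D.ker_old
  resOld_isEquiv := HeckeLattice.isEquiv_map _ D.ker_old habs h₁ h₀
  resNew := D.resNew
  resNew_isLocalHom := HeckeLattice.isLocalHom_map _ D.ker_new
  resNew_isEquiv := HeckeLattice.isEquiv_map _ D.ker_new habs h₁ h₂
  m := 2
  ι := D.ι
  π := D.π
  j := D.j
  m_pos := Nat.two_pos
  π_surjective := D.π_surjective
  ι_split := D.ι_split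
  j_split := ⟨D.t, D.t_j⟩
  π_j := D.π_j
  exact := D.exact
  ι_comm := D.ι_comm'
  π_comm := D.π_comm'
  j_comm := D.j_comm'
  e := hopE q D.tq
  π_ι := D.π_ι_eq
  det_e_mem := D.det_mem
  π_ι_ne_zero := D.π_ι_ne_zero
  det_e := hdiv
  special := hsp

end Hop

end FLTAgent.Lower.Lift.HopAsm
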