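import Fermat.Agent.Lower.Lift.HopAsm.SubFrame
import Fermat.Agent.Lower.Lift.HopAsm.Base
import Fermat.Agent.Lower.Levels.AuxFrame

/-!
# Auxiliary frames for the family without `q`

An auxiliary frame of level `N` for the primes outside the level gives one, with the same vectors,
for the family without `q` (`exists_auxSub`); stabilised eigenvalues and the auxiliary hypotheses
restrict to it (`stabEig_comp`, `auxHyp_of_subset`).
-/

set_option autoImplicit false
set_option linter.unusedSectionVars false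
set_option linter.style.haveILetI false

noncomputable section

open CongruenceSubgroup
open scoped MatrixGroups Matrix

namespace FLTAgent.Lower.Lift.HopAsm

open IsLocalRing (maximalIdeal ResidueField residue)
open FLTAgent.Lower FLTAgent.Lower.Levels

variable {O : Type} [CommRing O] [IsDomain O] [IsDiscreteValuationRing O]
  [IsAdicComplete (maximalIdeal O) O] [Finite (ResidueField O)] [CharZero O]
  {p : ℕ} [Fact p.Prime] {ρbar : ResidualGaloisRep (ResidueField O)}

/-- Stabilised eigenvalues restrict to a smaller family. -/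
theorem stabEig_comp {S S' : Finset ℕ} (hsub : S ⊆ S') {Q : ℕ}
    {θ' : AwayPrimes S → ResidueField O} (hθ : StabEig ρbar Q θ') :
    StabEig ρbar Q (θ' ∘ famIncl hsub) :=
  ⟨fun i hi => hθ.away (famIncl hsub i) hi, fun i hi => hθ.dvd (famIncl hsub i) hi⟩

theorem auxHyp_of_subset {S S' : Finset ℕ} {n r : ℕ} {Qv : Fin r → ℕ} (hsub : S ⊆ S')
    (hQ : AuxHyp p n S' ρbar Qv) : AuxHyp p n S ρbar Qv :=
  ⟨hQ.injective, hQ.tw, fun i h => hQ.notMem i (hsub h)⟩

theorem levelPrimes_mul {N q : ℕ} [NeZero N] (hq : q.Prime) :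
    levelPrimes p (N * q) = insert q (levelPrimes p N) := by
  rw [levelPrimes, levelPrimes, Nat.primeFactors_mul (NeZero.ne N) hq.ne_zero, hq.primeFactors,
    Finset.union_comm, ← Finset.insert_eq, Finset.insert_comm]

variable {N : ℕ} [NeZero N] {q n r : ℕ} {Qv : Fin r → ℕ} [NeZero (∏ i, Qv i)] {d : ℕ}

/-- The vectors of an auxiliary frame form one for the family without `q`. -/
theorem exists_auxSub (hp : (p : O) ∈ maximalIdeal O) [NeZero (N * q)] (hq : q.Prime)
    (hqN : ¬ q ∣ N) (hqp : q ≠ p) (hqS : q ∉ levelPrimes p N) (hd : d ≠ 0)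
    (h₁ : ResHyp p (levelPrimes p (N * q)) ρbar)
    (hQ : AuxHyp p n (levelPrimes p (N * q)) ρbar Qv)
    {θ' : AwayPrimes (levelPrimes p N) → ResidueField O}
    (hθ : StabEig ρbar (∏ i, Qv i) θ')
    {η : (ZMod (∏ i, Qv i))ˣ →* (DeltaRing O p n r)ˣ} (hη : EtaHyp O p n Qv η)
    {F₀ : Frame (1 : (ZMod N)ˣ →* Oˣ) (awPr (levelPrimes p N)) (residue O)
      (fun i => frobTrace ρbar i.1) d}
    (F₀' : Frame (1 : (ZMod N)ˣ →* Oˣ) (awPr (levelPrimes p (N * q))) (residue O)
      (fun i => frobTrace ρbar i.1) d)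
    (hvec : ∀ i, F₀'.vec i = F₀.vec i) (E : AuxFrames F₀ θ' η) :
    ∃ (G' : Frame (1 : (ZMod (N * ∏ i, Qv i))ˣ →* Oˣ) (awPr (levelPrimes p (N * q))) (residue O)
        (θ' ∘ famIncl (levelPrimes_subset_mul p)) d)
      (F' : Frame (twistChar (dvd_mul_left (∏ i, Qv i) N) η) (awPr (levelPrimes p (N * q)))
        (deltaRes p n r) (θ' ∘ famIncl (levelPrimes_subset_mul p)) d),
      (∀ i, G'.vec i = stabMap (awPr (levelPrimes p (N * q))) (residue O)
        (θ' ∘ famIncl (levelPrimes_subset_mul p)) (dvd_mul_right N _) (F₀'.vec i)) ∧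
      F'.vec = E.F.vec ∧ F'.IsLift G' (deltaAug O p n r).toRingHom E.reduces := by
  classical
  haveI : NeZero (N * ∏ i, Qv i) := ⟨mul_ne_zero (NeZero.ne N) (NeZero.ne _)⟩
  haveI := isLocalRing_deltaRing (O := O) p n r hp
  haveI := isAdicComplete_deltaRing (O := O) p n r hp
  haveI : IsNoetherianRing (DeltaRing O p n r) := IsNoetherianRing.of_finite O _
  set hsub := levelPrimes_subset_mul p (N := N) (q := q)
  have hσ : Function.Surjective (residue O) := IsLocalRing.residue_surjective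
  let f : ℤ_[p] →+* O := Reps.padicHom (maximalIdeal O) hp
  have hS' : levelPrimes p (N * q) = insert q (levelPrimes p N) := levelPrimes_mul hq
  have hθ' := stabEig_comp hsub hθ
  have hqQ : ¬ q ∣ N * ∏ i, Qv i := fun h => by
    rcases hq.dvd_mul.mp h with h | h
    · exact hqN h
    · obtain ⟨i, hi⟩ := hQ.exists_eq hq h
      exact hQ.notMem i (by rw [hS', hi]; exact Finset.mem_insert_self _ _)
  obtain ⟨G', hG'v, -⟩ := exists_sub_frame hS' hsub hσ f h₁.ne_two h₁.char hq
    (hθ'.famHyp h₁ _ hσ) hqS hqQ hqp (hθ'.parHyp h₁ _) hd E.G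
  have hpart : h1Part (1 : (ZMod (N * ∏ i, Qv i))ˣ →* Oˣ) (awPr (levelPrimes p (N * q))) (residue O)
      (θ' ∘ famIncl hsub) O =
      h1Part (1 : (ZMod (N * ∏ i, Qv i))ˣ →* Oˣ) (awPr (levelPrimes p N)) (residue O) θ' O := by
    refine le_antisymm (fun x hx => ?_) fun x hx => ?_
    · obtain ⟨a, rfl⟩ := G'.span x hx
      rw [show G'.vec = E.G.vec from funext hG'v]
      exact E.G.combo_mem a
    · obtain ⟨a, rfl⟩ := E.G.span x hx
      rw [← show G'.vec = E.G.vec from funext hG'v]
      exact G'.combo_mem a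
  have hcharO : CharHyp (1 : (ZMod (N * ∏ i, Qv i))ˣ →* Oˣ) (residue O) :=
    ⟨fun _ => by simp, by simp⟩
  obtain ⟨m, hm⟩ := hη.exists_odd h₁.ne_two
  have hcharR := charHyp_twistChar (dvd_mul_left (∏ i, Qv i) N) hm hη.residual
  obtain ⟨Gk, hGk⟩ := exists_frame_reduce (hθ'.famHyp h₁ _ hσ) hcharO G'
  obtain ⟨F', hF'v, -⟩ := exists_frame_of_lift
    (hθ'.famHyp h₁ _ (deltaRes_surjective (O := O) p n r)) hcharR Gk E.F.vec
    (fun i => mem_part.mpr fun s hs => by
      obtain ⟨y, hy⟩ := mem_part.mp (E.F.mem i) (MvPolynomial.rename (famIncl hsub) s) fun h => hs (by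
        rw [mem_eigIdeal, MvPolynomial.coe_eval₂Hom, MvPolynomial.eval₂_rename] at h
        rw [mem_eigIdeal, MvPolynomial.coe_eval₂Hom]
        exact h)
      exact ⟨y, by rw [← famAct_comp_rename] at hy; exact hy⟩)
    (fun i => by
      rw [← hGk i, hG'v, ← E.F_lift i]
      induction E.F.vec i using Submodule.Quotient.induction_on with
      | _ z => rfl)
  refine ⟨G', F', fun i => ?_, hF'v, fun i => by rw [hF'v, hG'v]; exact E.F_lift i⟩
  rw [hG'v, E.G_vec, hvec, stabMap_sub_eq hsub _ hσ hpart]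

end FLTAgent.Lower.Lift.HopAsm
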