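import Fermat.Agent.Lower.Lift.HopAsm.Base

/-!
# The hop at auxiliary levels

`LevelMats`: degeneracy matrices between lattices over a local algebra reducing to those of the
base hop.  The kernel of `π` then lifts the new lattice (`LevelMats.nonempty_ker`,
`LevelKer.lift_new`), inherits the relation of inertia at the auxiliary primes
(`LevelKer.twRel_new`), and `LevelKer.hopLevel` assembles the `HopLevel`.
-/

set_option autoImplicit false
set_option linter.unusedSectionVars false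
set_option linter.style.haveILetI false

noncomputable section

open scoped Matrix

namespace FLTAgent.Lower.Lift.HopAsm

open FLTAgent.Lower.Levels
open FLTAgent.Lower
open IsLocalRing (ResidueField maximalIdeal residue)

local notation "ℚ̄" => AlgebraicClosure ℚ
local notation "Γℚ" => (AlgebraicClosure ℚ ≃ₐ[ℚ] AlgebraicClosure ℚ)

variable {O : Type} [CommRing O] [IsDomain O] [IsDiscreteValuationRing O]
  [IsAdicComplete (maximalIdeal O) O] [Finite (ResidueField O)] [CharZero O]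
  {p : ℕ} [Fact p.Prime] {ρbar : ResidualGaloisRep (ResidueField O)}

/-- Traces along a map of lattices. -/
theorem trace_map {M M' : ℕ} [NeZero M] [NeZero M'] {S S' : Finset ℕ} {R R' : Type} [CommRing R]
    [Algebra O R] [Nontrivial R] [Module.Finite O R] [CommRing R'] [Algebra O R'] [Nontrivial R']
    [Module.Finite O R'] {d d' : ℕ} [NeZero d] [NeZero d']
    {X : HeckeLattice p M S ρbar R d} {X' : HeckeLattice p M' S' ρbar R' d'} {hS : S' ⊆ S}
    {hker : ∀ s, X.act s = 0 → X'.act (MvPolynomial.rename (HeckeLattice.awayMap hS) s) = 0}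
    {ρ : GaloisRepAdic X.T} {ρ' : GaloisRepAdic X'.T}
    (h : (ρ.baseChangeAlong (HeckeLattice.map hS hker : X.T →+* X'.T)
      (HeckeLattice.isLocalHom_map hS hker)).IsEquiv ρ') (σ : Γℚ) :
    ρ'.trace σ = HeckeLattice.map hS hker (ρ.trace σ) := by
  obtain ⟨e⟩ := h
  letI := (HeckeLattice.map hS hker : X.T →+* X'.T).toAlgebra
  have h1 : LinearMap.trace X'.T ρ'.V (ρ'.ρ σ) =
      LinearMap.trace X'.T _ ((ρ.baseChangeAlong (HeckeLattice.map hS hker : X.T →+* X'.T)
        (HeckeLattice.isLocalHom_map hS hker)).ρ σ) := by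
    rw [← LinearMap.trace_conj' _ e.toLinearEquiv]
    congr 1
    exact LinearMap.ext fun x => by
      rw [LinearEquiv.conj_apply_apply]
      exact ((e.map_apply σ _).trans (congrArg (ρ'.ρ σ) (e.toLinearEquiv.apply_symm_apply x))).symm
  exact h1.trans (LinearMap.trace_baseChange _ _)

/-- The relation of inertia at the auxiliary primes. -/
def TwRel {M : ℕ} [NeZero M] {S : Finset ℕ} {R : Type} [CommRing R] [Algebra O R] [Nontrivial R]
    [Module.Finite O R] {d : ℕ} [NeZero d] {n r : ℕ} (Qv : Fin r → ℕ)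
    (φ : R →ₐ[O] MvPowerSeries (Fin r) O ⧸ levelIdeal p n r O)
    (Y : HeckeLattice p M S ρbar R d) (ρ : GaloisRepAdic Y.T) : Prop :=
  ∀ i : Fin r, ∃ σ : Γℚ,
    (∃ A : ValuationSubring ℚ̄, A.LiesOverPrime (Qv i) ∧ σ ∈ A.inertiaSubgroupIn ℚ) ∧
    ∃ u : R, φ u = Ideal.Quotient.mk (levelIdeal p n r O) (1 + MvPowerSeries.X i) ∧
      imgAct Y.act (ρ.trace σ - 2) * Matrix.scalar (Fin d) u =
        Matrix.scalar (Fin d) ((u - 1) ^ 2)

variable {N q : ℕ} [NeZero N] [NeZero (N * q)] {d₀ d₁ : ℕ} [NeZero d₀] [NeZero d₁]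
  {X₀ : HeckeLattice p N (levelPrimes p N) ρbar O d₀}
  {X₁ : HeckeLattice p (N * q) (levelPrimes p (N * q)) ρbar O d₁} {D : HopMats X₀ X₁}
  {n r : ℕ} {Qv : Fin r → ℕ} {M₀ M₁ : ℕ} [NeZero M₀] [NeZero M₁]
  {R : Type} [CommRing R] [Algebra O R] [Nontrivial R] [Module.Finite O R] [IsLocalRing R]

theorem union_subset_mul :
    levelPrimes p N ∪ Finset.univ.image Qv ⊆ levelPrimes p (N * q) ∪ Finset.univ.image Qv :=
  Finset.union_subset_union_left (levelPrimes_subset_mul p)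

/-- The degeneracy matrices at an auxiliary level, reducing to those of the base. -/
structure LevelMats (D : HopMats X₀ X₁) (aug : R →ₐ[O] O)
    (Y₀ : HeckeLattice p M₀ (levelPrimes p N ∪ Finset.univ.image Qv) ρbar R d₀)
    (Y₁ : HeckeLattice p M₁ (levelPrimes p (N * q) ∪ Finset.univ.image Qv) ρbar R d₁)
 : Type where
  lift₀ : LatticeLift X₀ Y₀ (aug : R →+* O)
  lift₁ : LatticeLift X₁ Y₁ (aug : R →+* O)
  ι : Matrix (Fin d₁) (Fin d₀ × Fin 2) R
  π : Matrix (Fin d₀ × Fin 2) (Fin d₁) R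
  ι_map : ι.map aug = D.ι
  π_map : π.map aug = D.π
  ι_comm : ∀ s, Y₁.act s * ι = ι * Matrix.blockDiagonal fun _ : Fin 2 =>
    Y₀.act (MvPolynomial.rename (HeckeLattice.awayMap union_subset_mul) s)
  π_comm : ∀ s, (Matrix.blockDiagonal fun _ : Fin 2 =>
    Y₀.act (MvPolynomial.rename (HeckeLattice.awayMap union_subset_mul) s)) * π = π * Y₁.act s
  /-- The operator `T_q` of the old ring. -/
  tq : Y₀.T
  π_ι : π * ι = Matrix.of fun a b =>
    HopQ.eMat ((q : R) + 1) (imgAct Y₀.act tq) a.2 b.2 a.1 b.1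

variable {aug : R →ₐ[O] O}
  {Y₀ : HeckeLattice p M₀ (levelPrimes p N ∪ Finset.univ.image Qv) ρbar R d₀}
  {Y₁ : HeckeLattice p M₁ (levelPrimes p (N * q) ∪ Finset.univ.image Qv) ρbar R d₁}
  (E : LevelMats D aug Y₀ Y₁)

/-- The matrices of the kernel. -/
structure LevelKer (E : LevelMats D aug Y₀ Y₁) : Type where
  j : Matrix (Fin d₁) (Fin D.dNew) R
  t : Matrix (Fin D.dNew) (Fin d₁) R
  j_map : j.map aug = D.j
  π_j : E.π * j = 0
  t_j : t * j = 1
  stable : ∀ s, j * (t * (Y₁.act s * j)) = Y₁.act s * j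
  π_surjective : ∃ s : Matrix (Fin d₁) (Fin d₀ × Fin 2) R, E.π * s = 1

theorem LevelMats.nonempty_ker : Nonempty (LevelKer E) := by
  have hsur : Function.Surjective (aug : R →+* O) := fun a => ⟨algebraMap O _ a, aug.commutes a⟩
  haveI : IsLocalHom (aug : R →+* O) := IsLocalHom.of_surjective _ hsur
  have hπ : E.π.map (aug : R →+* O) = D.π := E.π_map
  obtain ⟨s₀, hs₀⟩ := D.π_surjective
  obtain ⟨j, t, hj, hπj, htj, hst, -⟩ := HopTW.exists_ker_lift hsur E.π D.j
    ⟨s₀, by rw [hπ, hs₀]⟩ (by rw [hπ, D.π_j]) ⟨D.t, D.t_j⟩ (fun x hx => D.exact x (hπ ▸ hx))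
  obtain ⟨s, hs, -⟩ := HopTW.exists_rightInv_lift hsur E.π (by rw [hπ, hs₀])
  exact ⟨⟨j, t, hj, hπj, htj, fun z => hst _ (by
    rw [← Matrix.mul_assoc, ← E.π_comm, Matrix.mul_assoc, hπj, Matrix.mul_zero]), s, hs⟩⟩

variable {E} (K : LevelKer E)

/-- The auxiliary lattice of the new part. -/
def LevelKer.new :
    HeckeLattice p M₁ (levelPrimes p (N * q) ∪ Finset.univ.image Qv) ρbar R D.dNew :=
  subLattice Y₁ K.j K.t K.t_j K.stable

theorem LevelKer.lift_new : LatticeLift D.new K.new (aug : R →+* O) := fun s => by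
  refine mul_left_cancel_of_split D.t_j ?_
  rw [HopMats.new, ← subLattice_act_mul, ← E.lift₁ s, ← K.j_map]
  have h := congrArg (fun Z => Z.map (aug : R →+* O))
    (subLattice_act_mul Y₁ K.j K.t K.t_j K.stable s)
  simp only [HopTW.matMap_mul] at h
  exact h.symm

include K in
theorem LevelKer.ker_old
    (s : MvPolynomial (AwayIdx (levelPrimes p (N * q) ∪ Finset.univ.image Qv)) O)
    (hs : Y₁.act s = 0) :
    Y₀.act (MvPolynomial.rename (HeckeLattice.awayMap union_subset_mul) s) = 0 :=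
  eq_zero_of_blockDiagonal_mul K.π_surjective
    ((E.π_comm s).trans (by rw [hs, Matrix.mul_zero]))

theorem LevelKer.ker_new
    (s : MvPolynomial (AwayIdx (levelPrimes p (N * q) ∪ Finset.univ.image Qv)) O)
    (hs : Y₁.act s = 0) :
    K.new.act (MvPolynomial.rename (HeckeLattice.awayMap subset_rfl) s) = 0 := by
  show HopTW.subAct Y₁.act K.j K.t K.t_j K.stable _ = 0
  rw [show HeckeLattice.awayMap
      (subset_rfl (a := levelPrimes p (N * q) ∪ Finset.univ.image Qv)) = id from rfl,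
    MvPolynomial.rename_id, AlgHom.id_apply, HopTW.subAct_apply, hs, Matrix.zero_mul,
    Matrix.mul_zero]

/-- The map to the old ring. -/
def LevelKer.resOld : Y₁.T →ₐ[O] Y₀.T := HeckeLattice.map union_subset_mul K.ker_old

/-- The map to the new ring. -/
def LevelKer.resNew : Y₁.T →ₐ[O] K.new.T := HeckeLattice.map subset_rfl K.ker_new

theorem LevelKer.ι_comm' (t : Y₁.T) : imgAct Y₁.act t * E.ι = E.ι *
    (Matrix.blockDiagonal fun _ => imgAct Y₀.act (K.resOld t) :
      Matrix (Fin d₀ × Fin 2) (Fin d₀ × Fin 2) R) := by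
  obtain ⟨s, rfl⟩ := Ideal.Quotient.mk_surjective t
  rw [LevelKer.resOld, HeckeLattice.map_mk]
  simp only [imgAct_mk]
  exact E.ι_comm s

theorem LevelKer.π_comm' (t : Y₁.T) : (Matrix.blockDiagonal fun _ => imgAct Y₀.act (K.resOld t) :
      Matrix (Fin d₀ × Fin 2) (Fin d₀ × Fin 2) R) * E.π = E.π * imgAct Y₁.act t := by
  obtain ⟨s, rfl⟩ := Ideal.Quotient.mk_surjective t
  rw [LevelKer.resOld, HeckeLattice.map_mk]
  simp only [imgAct_mk]
  exact E.π_comm s

theorem LevelKer.j_comm' (t : Y₁.T) :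
    imgAct Y₁.act t * K.j = K.j * imgAct K.new.act (K.resNew t) := by
  obtain ⟨s, rfl⟩ := Ideal.Quotient.mk_surjective t
  rw [LevelKer.resNew, HeckeLattice.map_mk]
  simp only [imgAct_mk]
  rw [show HeckeLattice.awayMap
      (subset_rfl (a := levelPrimes p (N * q) ∪ Finset.univ.image Qv)) = id from rfl,
    MvPolynomial.rename_id, AlgHom.id_apply]
  exact subLattice_act_mul Y₁ K.j K.t K.t_j K.stable s

variable {φ : R →ₐ[O] MvPowerSeries (Fin r) O ⧸ levelIdeal p n r O} {f : ℤ_[p] →+* O}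
  {locOld locNew : LocalType}

theorem LevelKer.twRel_new (habs : ρbar.IsAbsolutelyIrreducible) {r₁ : GaloisRepAdic Y₁.T}
    (k₁ : Y₁.IsRep f r₁) (w₁ : TwRel Qv φ Y₁ r₁) {r₂ : GaloisRepAdic K.new.T}
    (k₂ : K.new.IsRep f r₂) : TwRel Qv φ K.new r₂ := fun i => by
  obtain ⟨σ, hσ, u, hu, h1⟩ := w₁ i
  refine ⟨σ, hσ, u, hu, mul_left_cancel_of_split K.t_j ?_⟩
  have hc : ∀ z : R, K.j * Matrix.scalar (Fin D.dNew) z = Matrix.scalar (Fin d₁) z * K.j := by
    intro z
    ext a b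
    simp [Matrix.scalar_apply, Matrix.diagonal_mul, Matrix.mul_diagonal, mul_comm]
  have h2 : r₂.trace σ - 2 = K.resNew (r₁.trace σ - 2) := by
    rw [trace_map (HeckeLattice.isEquiv_map subset_rfl K.ker_new habs k₁ k₂) σ,
      LevelKer.resNew, map_sub, map_ofNat]
  rw [h2, ← Matrix.mul_assoc, ← K.j_comm', Matrix.mul_assoc, hc, ← Matrix.mul_assoc, h1, hc]

/-- **The hop at an auxiliary level.** -/
def LevelKer.hopLevel
    (hφ : ∀ (z : R) (g : MvPowerSeries (Fin r) O), Ideal.Quotient.mk _ g = φ z →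
      MvPowerSeries.constantCoeff g = aug z)
    (habs : ρbar.IsAbsolutelyIrreducible) {ρ₀ : GaloisRepAdic X₀.T}
    (h₀ : X₀.IsRep f ρ₀) (c₀ : Cond locOld p (unipPrimes p N) (levelPrimes p N) ρ₀)
    {ρ₁ : GaloisRepAdic X₁.T} (h₁ : X₁.IsRep f ρ₁)
    (c₁ : Cond anyType p (unipPrimes p (N * q)) (levelPrimes p (N * q)) ρ₁)
    {ρ₂ : GaloisRepAdic D.new.T} (h₂ : D.new.IsRep f ρ₂)
    (c₂ : Cond locNew p (unipPrimes p (N * q)) (levelPrimes p (N * q)) ρ₂)
    (hdiv : q ≠ p → DivBySpecial q ρ₀ (hopE q D.tq).det)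
    (hsp : q ≠ p → IsSpecial q ρ₂)
    {r₀ : GaloisRepAdic Y₀.T} (k₀ : Y₀.IsRep f r₀)
    (e₀ : Cond locOld p (unipPrimes p N) (levelPrimes p N ∪ Finset.univ.image Qv) r₀)
    (w₀ : TwRel Qv φ Y₀ r₀)
    {r₁ : GaloisRepAdic Y₁.T} (k₁ : Y₁.IsRep f r₁)
    (e₁ : Cond anyType p (unipPrimes p (N * q))
      (levelPrimes p (N * q) ∪ Finset.univ.image Qv) r₁)
    (w₁ : TwRel Qv φ Y₁ r₁)
    {r₂ : GaloisRepAdic K.new.T} (k₂ : K.new.IsRep f r₂)
    (e₂ : Cond locNew p (unipPrimes p (N * q))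
      (levelPrimes p (N * q) ∪ Finset.univ.image Qv) r₂)
    (hdivn : q ≠ p → DivBySpecial q r₀ (hopE q E.tq).det)
    (hspn : q ≠ p → IsSpecial q r₂) :
    HopLevel (D.hop habs h₀ c₀ h₁ c₁ h₂ c₂ hdiv hsp) n Qv where
  old := heckeLevelOf X₀ ρ₀ h₀ c₀ habs Y₀ r₀ k₀ e₀ (aug : R →+* O) φ hφ E.lift₀ w₀
  all := heckeLevelOf X₁ ρ₁ h₁ c₁ habs Y₁ r₁ k₁ e₁ (aug : R →+* O) φ hφ E.lift₁ w₁
  new := heckeLevelOf D.new ρ₂ h₂ c₂ habs K.new r₂ k₂ e₂ (aug : R →+* O) φ hφ K.lift_new
    (K.twRel_new habs k₁ w₁ k₂)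
  resOld := K.resOld
  resOld_isLocalHom := HeckeLattice.isLocalHom_map _ K.ker_old
  resOld_isEquiv := HeckeLattice.isEquiv_map _ K.ker_old habs k₁ k₀
  resNew := K.resNew
  resNew_isLocalHom := HeckeLattice.isLocalHom_map _ K.ker_new
  resNew_isEquiv := HeckeLattice.isEquiv_map _ K.ker_new habs k₁ k₂
  ι := E.ι.map φ
  π := E.π.map φ
  j := K.j.map φ
  ι_eq := fun a b g hg => by
    rw [hφ _ g hg]
    exact congrFun (congrFun E.ι_map a) b
  π_eq := fun a b g hg => by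
    rw [hφ _ g hg]
    exact congrFun (congrFun E.π_map a) b
  j_eq := fun a b g hg => by
    rw [hφ _ g hg]
    exact congrFun (congrFun K.j_map a) b
  π_j := by
    have h := congrArg (fun Z => Z.map φ.toRingHom) K.π_j
    simp only [HopTW.matMap_mul, Matrix.map_zero _ (map_zero _)] at h
    exact h
  ι_comm := fun t => by
    have h := congrArg (fun Z => Z.map φ.toRingHom) (K.ι_comm' t)
    simp only [HopTW.matMap_mul, Matrix.blockDiagonal_map _ _ (map_zero _)] at h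
    exact h
  π_comm := fun t => by
    have h := congrArg (fun Z => Z.map φ.toRingHom) (K.π_comm' t)
    simp only [HopTW.matMap_mul, Matrix.blockDiagonal_map _ _ (map_zero _)] at h
    exact h
  j_comm := fun t => by
    have h := congrArg (fun Z => Z.map φ.toRingHom) (K.j_comm' t)
    simp only [HopTW.matMap_mul] at h
    exact h
  e := hopE q E.tq
  π_ι := by
    have h := congrArg (fun Z => Z.map φ.toRingHom) E.π_ι
    simp only [HopTW.matMap_mul] at h
    refine h.trans ?_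
    ext a b
    show φ _ = φ (imgAct Y₀.act (hopE q _ a.2 b.2) a.1 b.1)
    rw [map_hopE]
    rfl
  det_e := hdivn
  special := hspn

end FLTAgent.Lower.Lift.HopAsm
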