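import Fermat.Agent.Lower.Lift.HopAsm.BaseHop
import Fermat.Agent.Lower.Lift.HopAsm.Level
import Fermat.Agent.Lower.Lift.HopAsm.AuxSub
import Fermat.Agent.Lower.Lift.HopTW.Lattice
import Fermat.Agent.Lower.Lift.HopTW.Special

/-!
# The matrices of the hop at an auxiliary level

From auxiliary frames at both levels `N` and `N q`, `exists_levelMats` gives degeneracy matrices
between their lattices reducing to those of the base hop, with `T_q` as the operator of the old
ring, and with kernel vectors killed by both corestrictions after the twist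
(`cor_twistMap_eq_zero`).
-/

set_option autoImplicit false
set_option linter.unusedSectionVars false
set_option linter.style.haveILetI false

noncomputable section

open CongruenceSubgroup
open scoped MatrixGroups Matrix

namespace FLTAgent.Lower.Lift.HopAsm

open IsLocalRing (maximalIdeal ResidueField residue)
open FLTAgent.Lower FLTAgent.Lower.Levels

variable {O : Type} [CommRing O] [IsDomain O] [IsDiscreteValuationRing O]
  [IsAdicComplete (maximalIdeal O) O] [Finite (ResidueField O)] [CharZero O]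
  {p : ℕ} [Fact p.Prime] {ρbar : ResidualGaloisRep (ResidueField O)}
  {N q n r : ℕ} [NeZero N] [NeZero (N * q)] [Fact q.Prime] {Qv : Fin r → ℕ}
  [NeZero (∏ i, Qv i)]
  {hqN : ¬ q ∣ N} {hqS : q ∉ levelPrimes p N}
  {h₀ : ResHyp p (levelPrimes p N) ρbar} {h₁ : ResHyp p (levelPrimes p (N * q)) ρbar}

theorem notMem_union (hqS : q ∉ levelPrimes p N) (hQ : AuxHyp p n (levelPrimes p (N * q)) ρbar Qv) :
    q ∉ levelPrimes p N ∪ Finset.univ.image Qv := fun h => by
  rcases Finset.mem_union.mp h with h | h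
  · exact hqS h
  · obtain ⟨i, -, hi⟩ := Finset.mem_image.mp h
    refine hQ.notMem i ?_
    rw [levelPrimes_mul Fact.out, hi]
    exact Finset.mem_insert_self _ _

section Frames

variable {R : Type} [CommRing R] [Algebra O R] [Nontrivial R] [Module.Finite O R]
  {d₀ d₁ : ℕ} [NeZero d₀] [NeZero d₁] {M₀ M₁ L M : ℕ} [NeZero M₀] [NeZero M₁]
  {X₀ : HeckeLattice p N (levelPrimes p N) ρbar O d₀}
  {X₁ : HeckeLattice p (N * q) (levelPrimes p (N * q)) ρbar O d₁}
  {aug : R →ₐ[O] O}
  {Y₀ : HeckeLattice p M₀ (levelPrimes p N ∪ Finset.univ.image Qv) ρbar R d₀}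
  {Y₁ : HeckeLattice p M₁ (levelPrimes p (N * q) ∪ Finset.univ.image Qv) ρbar R d₁}

/-- The matrices of frames whose operators are those of the lattices. -/
theorem exists_levelMats_of_frames (D : HopMats X₀ X₁) (h : HopTW.IsRaise L M q)
    (hQ : (∏ i, Qv i) ∣ L) (η : (ZMod (∏ i, Qv i))ˣ →* Rˣ)
    (hne : ∀ i : AwayPrimes (levelPrimes p (N * q)), (i.1 : ℕ) ≠ q)
    {σ : R →+* ResidueField O} {θ : AwayPrimes (levelPrimes p (N * q)) → ResidueField O}
    {θp : AwayPrimes (levelPrimes p N) → ResidueField O}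
    (F : Frame (twistChar hQ η) (awPr (levelPrimes p (N * q))) σ θ d₀)
    (F' : Frame (twistChar (hQ.trans h.dvd) η) (awPr (levelPrimes p (N * q))) σ θ d₁)
    (G : Frame (twistChar hQ η) (awPr (levelPrimes p N)) σ θp d₀) (hv : G.vec = F.vec)
    (hqU : q ∉ levelPrimes p N ∪ Finset.univ.image Qv)
    (hY₀ : Y₀.act = levelAct G η
      (HeckeLattice.awayMap (Finset.subset_union_left (s₂ := Finset.univ.image Qv))))
    (hY₁ : Y₁.act = levelAct F' η
      (HeckeLattice.awayMap (Finset.subset_union_left (s₂ := Finset.univ.image Qv))))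
    (lift₀ : LatticeLift X₀ Y₀ (aug : R →+* O)) (lift₁ : LatticeLift X₁ Y₁ (aug : R →+* O))
    (hι : (HopTW.levelIota h hQ η hne F (HopTW.upFrame h hQ η F')).map aug = D.ι)
    (hπ : (HopTW.levelPi h hQ η hne F (HopTW.upFrame h hQ η F')).map aug = D.π) :
    ∃ E : LevelMats D aug Y₀ Y₁, E.tq = Y₀.op (awayIdx (Fact.out : q.Prime) hqU) ∧
      E.π = HopTW.levelPi h hQ η hne F (HopTW.upFrame h hQ η F') := by
  have hsub := levelPrimes_subset_mul p (N := N) (q := q)
  have ht : imgAct Y₀.act (Y₀.op (awayIdx (Fact.out : q.Prime) hqU)) =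
      HopTW.levelT h hQ η F := by
    rw [HopTW.levelT_eq_act (O := O) h hQ η F G hv
      (HeckeLattice.awayMap (Finset.subset_union_left (s₂ := Finset.univ.image Qv)))
      (awayIdx (Fact.out : q.Prime) hqU) rfl, ← hY₀, HeckeLattice.op, imgGen, imgAct_mk]
  exact ⟨{
    lift₀ := lift₀
    lift₁ := lift₁
    ι := HopTW.levelIota h hQ η hne F (HopTW.upFrame h hQ η F')
    π := HopTW.levelPi h hQ η hne F (HopTW.upFrame h hQ η F')
    ι_map := hι
    π_map := hπ
    ι_comm := fun s => by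
      rw [hY₀, hY₁]
      exact HopTW.levelIota_comm_act h hQ η hne F F' G hv (famIncl hsub) (fun _ => rfl) _ _
        (HeckeLattice.awayMap union_subset_mul) (fun _ => rfl) s
    π_comm := fun s => by
      rw [hY₀, hY₁]
      exact HopTW.levelPi_comm_act h hQ η hne F F' G hv (famIncl hsub) (fun _ => rfl) _ _
        (HeckeLattice.awayMap union_subset_mul) (fun _ => rfl) s
    tq := Y₀.op (awayIdx (Fact.out : q.Prime) hqU)
    π_ι := by rw [ht, HopTW.levelPi_iota] }, rfl, rfl⟩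

/-- Vectors killed by `π` are killed by both corestrictions after the twist. -/
theorem cor_twistMap_eq_zero {Q : ℕ} [NeZero Q] (h : HopTW.IsRaise L M q) (hQ : Q ∣ L)
    (η : (ZMod Q)ˣ →* Rˣ) {ι : Type} {pr : ι → Nat.Primes} (hne : ∀ i, (pr i : ℕ) ≠ q)
    {σ : R →+* ResidueField O} {θ : ι → ResidueField O} (F : Frame (twistChar hQ η) pr σ θ d₀)
    (F' : Frame (twistChar (hQ.trans h.dvd) η) pr σ θ d₁) (x : Fin d₁ → R)
    (hx : HopTW.levelPi h hQ η hne F (HopTW.upFrame h hQ η F') *ᵥ x = 0)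
    (h' : HopTW.IsRaise (L * Q) (M * Q) q) :
    (HopTW.corU R h').map R (twistMap (hQ.trans h.dvd) η (F'.combo x)) = 0 ∧
      (HopTW.corWU R h').map R (twistMap (hQ.trans h.dvd) η (F'.combo x)) = 0 := by
  have h2 := HopTW.cor_twist_eq_zero h hQ η hne F (HopTW.upFrame h hQ η F') hx
  rw [HopTW.upFrame_twist h hQ η F' x] at h2
  exact h2

end Frames

/-- The auxiliary matrices with their lattices. -/
theorem exists_levelMats (hp : (p : O) ∈ maximalIdeal O) [IsLocalRing (DeltaRing O p n r)]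
    (hqp : q ≠ p) (B : BaseHop p ρbar N q hqN hqS h₀ h₁)
    (hQ : AuxHyp p n (levelPrimes p (N * q)) ρbar Qv)
    {θ' : AwayPrimes (levelPrimes p N) → ResidueField O} (hθ : StabEig ρbar (∏ i, Qv i) θ')
    {η : (ZMod (∏ i, Qv i))ˣ →* (DeltaRing O p n r)ˣ} (hη : EtaHyp O p n Qv η)
    (E₀ : AuxFrames B.F₀ θ' η)
    (E₁ : AuxFrames B.F₁ (θ' ∘ famIncl (levelPrimes_subset_mul p)) η) :
    ∃ E : LevelMats B.mats (deltaAug O p n r)
        (E₀.lattice hp h₀ level_mem_levelPrimes (auxHyp_of_subset (levelPrimes_subset_mul p) hQ)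
          hθ hη)
        (E₁.lattice hp h₁ level_mem_levelPrimes hQ
          (stabEig_comp (levelPrimes_subset_mul p) hθ) hη),
      E.tq = HeckeLattice.op _ (awayIdx (Fact.out : q.Prime) (notMem_union hqS hQ)) ∧
      ∀ x, E.π *ᵥ x = 0 → ∀ h : HopTW.IsRaise (N * (∏ i, Qv i) * ∏ i, Qv i)
          (N * q * (∏ i, Qv i) * ∏ i, Qv i) q,
        (HopTW.corU (DeltaRing O p n r) h).map (DeltaRing O p n r)
          (twistMap (dvd_mul_left (∏ i, Qv i) (N * q)) η (E₁.F.combo x)) = 0 ∧
        (HopTW.corWU (DeltaRing O p n r) h).map (DeltaRing O p n r)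
          (twistMap (dvd_mul_left (∏ i, Qv i) (N * q)) η (E₁.F.combo x)) = 0 := by
  classical
  have hq : q.Prime := Fact.out
  haveI : NeZero (N * ∏ i, Qv i) := ⟨mul_ne_zero (NeZero.ne N) (NeZero.ne _)⟩
  haveI : NeZero (N * q * ∏ i, Qv i) := ⟨mul_ne_zero (NeZero.ne (N * q)) (NeZero.ne _)⟩
  haveI := isAdicComplete_deltaRing (O := O) p n r hp
  haveI : IsNoetherianRing (DeltaRing O p n r) := IsNoetherianRing.of_finite O _
  haveI : IsLocalHom (deltaAug O p n r).toRingHom :=
    IsLocalHom.of_surjective _ fun a => ⟨algebraMap O _ a, (deltaAug O p n r).commutes a⟩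
  have hsub := levelPrimes_subset_mul p (N := N) (q := q)
  obtain ⟨G', F', hG', hvec, hlift⟩ :=
    exists_auxSub hp hq hqN hqp hqS (NeZero.ne B.d₀) h₁ hQ hθ hη B.F₀' B.vec_eq E₀
  have hqQ : ¬ q ∣ N * ∏ i, Qv i := fun h => by
    rcases hq.dvd_mul.mp h with h | h
    · exact hqN h
    · obtain ⟨i, hi⟩ := hQ.exists_eq hq h
      exact notMem_union hqS hQ (Finset.mem_union_right _
        (Finset.mem_image.mpr ⟨i, Finset.mem_univ i, hi⟩))
  have hr : HopTW.IsRaise (N * ∏ i, Qv i) (N * q * ∏ i, Qv i) q := ⟨hq, hqQ, by ring⟩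
  have hne : ∀ i : AwayPrimes (levelPrimes p (N * q)), (i.1 : ℕ) ≠ q := fun i he => i.2
    ((levelPrimes_mul hq).ge (Finset.mem_insert.mpr (Or.inl he)))
  have hQL : (∏ i, Qv i) ∣ N * ∏ i, Qv i := dvd_mul_left _ N
  have hFu : (HopTW.upFrame hr hQL η E₁.F).IsLift E₁.G (deltaAug O p n r).toRingHom
      (HopTW.upChar_reduces hr hQL η hη.aug) :=
    HopTW.upFrame_isLift hr hQL η E₁.F_lift
  have hmapι := HopTW.map_levelIota hr hQL η hne hη.aug (dvd_mul_right N (∏ i, Qv i))
    (dvd_mul_right (N * q) (∏ i, Qv i)) hG' E₁.G_vec hlift hFu B.data IsLocalRing.residue_surjective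
  have hmapπ := HopTW.map_levelPi hr hQL η hne hη.aug (dvd_mul_right N (∏ i, Qv i))
    (dvd_mul_right (N * q) (∏ i, Qv i)) hG' E₁.G_vec hlift hFu B.data IsLocalRing.residue_surjective
  obtain ⟨E, htq, hπ⟩ := exists_levelMats_of_frames (aug := deltaAug O p n r) B.mats hr hQL η hne F' E₁.F E₀.F hvec.symm
    (notMem_union hqS hQ)
    (E₀.lattice_act hp h₀ level_mem_levelPrimes (auxHyp_of_subset hsub hQ) hθ hη)
    (E₁.lattice_act hp h₁ level_mem_levelPrimes hQ (stabEig_comp hsub hθ) hη)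
    (E₀.latticeLift hp h₀ level_mem_levelPrimes (auxHyp_of_subset hsub hQ) hθ hη _
      fun l => baseLattice_act_id B.F₀ _ _ _)
    (E₁.latticeLift hp h₁ level_mem_levelPrimes hQ (stabEig_comp hsub hθ) hη _
      fun l => baseLattice_act_id B.F₁ _ _ _)
    (hmapι.trans B.ι_eq.symm) (hmapπ.trans B.π_eq.symm)
  exact ⟨E, htq, fun x hx h' =>
    cor_twistMap_eq_zero hr hQL η hne F' E₁.F x (hπ ▸ hx) h'⟩

end FLTAgent.Lower.Lift.HopAsm
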