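import Fermat.Agent.Lower.Levels.BaseLevel
import Fermat.Agent.Lower.Levels.StabFrame

/-!
# Leaving a prime out of the family

A frame for the primes outside `S` is a frame for the primes outside `S ∪ {q}` with the same
vectors (`exists_sub_frame`): omitting a prime of the family does not change a nonzero part
(`h1Part_subfamily`).  With equal parts the projections after restriction agree
(`stabMap_sub_eq`).
-/

set_option autoImplicit false
set_option linter.unusedSectionVars false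

noncomputable section

open CongruenceSubgroup
open scoped MatrixGroups Matrix

namespace FLTAgent.Lower.Lift.HopAsm

open IsLocalRing (maximalIdeal ResidueField residue)
open FLTAgent.Lower FLTAgent.Lower.Levels

variable {L : ℕ} {R : Type} [CommRing R] {k : Type} [Field k] {ι κ : Type}

/-- The part does not see a relabelling of the family. -/
theorem h1Part_reindex (ψ : (ZMod L)ˣ →* Rˣ) (e : κ ≃ ι) (pr : ι → Nat.Primes) (σ : R →+* k)
    (θ : ι → k) : h1Part ψ (pr ∘ e) σ (θ ∘ e) R = h1Part ψ pr σ θ R := by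
  ext x
  have key : ∀ s : MvPolynomial κ R,
      MvPolynomial.rename e s ∈ eigIdeal σ θ ↔ s ∈ eigIdeal σ (θ ∘ e) := fun s => by
    rw [mem_eigIdeal, mem_eigIdeal]
    show MvPolynomial.eval₂ σ θ _ = 0 ↔ _
    rw [MvPolynomial.eval₂_rename]
    rfl
  rw [h1Part, h1Part, mem_part, mem_part]
  constructor
  · intro h s hs
    have hs' : MvPolynomial.rename e (MvPolynomial.rename e.symm s) = s := by
      rw [MvPolynomial.rename_rename, Equiv.self_comp_symm, MvPolynomial.rename_id,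
        AlgHom.id_apply]
    obtain ⟨y, hy⟩ := h (MvPolynomial.rename e.symm s) fun hm => hs (hs' ▸ (key _).mpr hm)
    refine ⟨y, ?_⟩
    rwa [famAct_comp_rename, hs'] at hy
  · intro h s hs
    obtain ⟨y, hy⟩ := h (MvPolynomial.rename e s) fun hm => hs ((key s).mp hm)
    exact ⟨y, by rwa [famAct_comp_rename]⟩

variable {O : Type} [CommRing O] [IsDomain O] [IsDiscreteValuationRing O]
  [IsAdicComplete (maximalIdeal O) O] [CharZero O] [Finite k] {p : ℕ} [Fact p.Prime]

/-- The inclusion of the smaller family. -/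
def famIncl {S S' : Finset ℕ} (h : S ⊆ S') (i : AwayPrimes S') : AwayPrimes S := ⟨i.1, fun hi => i.2 (h hi)⟩

variable {N : ℕ} [NeZero N] {σ : O →+* k} {S : Finset ℕ} {q : ℕ} {θ : AwayPrimes S → k} {d : ℕ}

/-- **A frame of the smaller family.** -/
theorem exists_sub_frame {S' : Finset ℕ} (hS' : S' = insert q S) (hsub : S ⊆ S') (hσ : Function.Surjective σ) (f : ℤ_[p] →+* O) (hp2 : p ≠ 2)
    (hp : (p : k) = 0) (hq : q.Prime)
    (hfam : FamHyp N (awPr S') σ (θ ∘ famIncl hsub))
    (hqS : q ∉ S) (hqN : ¬ q ∣ N) (hqp : q ≠ p)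
    (hkeep : ParHyp N (awPr S') (θ ∘ famIncl hsub)) (hd : d ≠ 0)
    (F : Frame (1 : (ZMod N)ˣ →* Oˣ) (awPr S) σ θ d) :
    ∃ F' : Frame (1 : (ZMod N)ˣ →* Oˣ) (awPr S') σ (θ ∘ famIncl hsub) d,
      (∀ i, F'.vec i = F.vec i) ∧
      ∀ s, F'.mat s = F.mat (MvPolynomial.rename (famIncl hsub) s) := by
  classical
  subst hS'
  let P : Set (AwayPrimes S) := {⟨⟨q, hq⟩, hqS⟩}
  let e : AwayPrimes (insert q S) ≃ {i : AwayPrimes S // i ∉ P} :=
    { toFun := fun i => ⟨famIncl (Finset.subset_insert q S) i, fun h =>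
        i.2 (Finset.mem_insert.mpr (Or.inl (congrArg (fun j : AwayPrimes S => (j.1 : ℕ)) h)))⟩
      invFun := fun i => ⟨i.1.1, fun h => (Finset.mem_insert.mp h).elim
        (fun h' => i.2 (Subtype.ext (Subtype.ext h'))) i.1.2⟩
      left_inv := fun i => rfl
      right_inv := fun i => rfl }
  have hpart := h1Part_subfamily (R := O) (S₀ := S) (P := P) hp2 hσ f hp Subtype.val_injective
    (fun l hl => ⟨⟨l, hl⟩, rfl⟩)
    (hfam.order_three.imp_right fun ⟨i, h1, h2⟩ => ⟨e i, (e i).2, h1, h2⟩) (Set.finite_singleton _)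
    (fun i hi => by rw [Set.mem_singleton_iff.mp hi]; exact ⟨hqN, hqp⟩)
    (by obtain ⟨i, hi, hne⟩ := hkeep; exact ⟨e i, hi, hne⟩) hd F
  have hre := h1Part_reindex (1 : (ZMod N)ˣ →* Oˣ) e (fun i => (i.1.1 : Nat.Primes)) σ
    fun i => θ i.1
  rw [hpart] at hre
  let F' : Frame (1 : (ZMod N)ˣ →* Oˣ) (awPr (insert q S)) σ
      (θ ∘ famIncl (Finset.subset_insert q S)) d :=
    { vec := F.vec
      mem := fun i => hre.ge (F.mem i)
      inj := F.inj
      span := fun x hx => F.span x (hre.le hx) }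
  refine ⟨F', fun _ => rfl, fun s => F'.mat_unique fun c => ?_⟩
  refine (F'.combo_mat s c).trans ?_
  rw [show F'.combo = F.combo from rfl, F.combo_mat, ← famAct_comp_rename]
  rfl

/-- With equal parts the projections after restriction agree. -/
theorem stabMap_sub_eq {L' : ℕ} [NeZero L'] {S S' : Finset ℕ} (hsub : S ⊆ S') (hd : N ∣ L')
    (hσ : Function.Surjective σ) {θ' : AwayPrimes S → k}
    (hpart : h1Part (1 : (ZMod L')ˣ →* Oˣ) (awPr S') σ (θ' ∘ famIncl hsub) O =
      h1Part (1 : (ZMod L')ˣ →* Oˣ) (awPr S) σ θ' O) (x : H1 O O (tchi N O)) :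
    stabMap (awPr S') σ (θ' ∘ famIncl hsub) hd x = stabMap (awPr S) σ θ' hd x := by
  have : (eigIdeal σ θ').IsMaximal := isMaximal_eigIdeal hσ θ'
  have : (eigIdeal σ (θ' ∘ famIncl hsub)).IsMaximal := isMaximal_eigIdeal hσ _
  have hm := (isMaximal_eigIdeal hσ θ').ne_top
  have hm₀ := (isMaximal_eigIdeal hσ (θ' ∘ famIncl hsub)).ne_top
  obtain ⟨e, he⟩ := exists_isProj (famAct (1 : (ZMod L')ˣ →* Oˣ) (awPr S) O) (eigIdeal σ θ')
  obtain ⟨e₀, he₀⟩ := exists_isProj (famAct (1 : (ZMod L')ˣ →* Oˣ) (awPr S') O)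
    (eigIdeal σ (θ' ∘ famIncl hsub))
  rw [stabMap, stabMap, LinearMap.comp_apply, LinearMap.comp_apply, partProj_eq hm₀ he₀,
    partProj_eq hm he]
  set y := (resSys O hd).map O x
  obtain ⟨s, hs, hs0⟩ := (he₀.apply_eq_zero_iff hm₀).mp
    (show famAct 1 (awPr S') O e₀ (y - famAct 1 (awPr S') O e₀ y) = 0 by
      rw [map_sub, ← Module.End.mul_apply, ← map_mul, he₀.idem, sub_self])
  have h0 : famAct 1 (awPr S) O e (y - famAct 1 (awPr S') O e₀ y) = 0 :=
    (he.apply_eq_zero_iff hm).mpr ⟨MvPolynomial.rename (famIncl hsub) s, fun h1 => hs (by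
      rw [mem_eigIdeal, MvPolynomial.coe_eval₂Hom, MvPolynomial.eval₂_rename] at h1
      rw [mem_eigIdeal, MvPolynomial.coe_eval₂Hom]
      exact h1), by
      rw [← famAct_comp_rename]
      exact hs0⟩
  rw [map_sub, sub_eq_zero] at h0
  rw [h0]
  refine (he.apply_eq_self hm ?_).symm
  show _ ∈ h1Part (1 : (ZMod L')ˣ →* Oˣ) (awPr S) σ θ' O
  rw [← hpart]
  exact he₀.mem_part hm₀ y

end FLTAgent.Lower.Lift.HopAsm
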