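import Fermat.Agent.Lower.Lift.HopAsm.Base
import Fermat.Agent.Lower.Lift.HopAsm.SubFrame
import Fermat.Agent.Lower.Levels.AuxLevel
import Fermat.Agent.Lower.Lift.HopQ.Coord

/-!
# The base of the hop at `q ≠ p`

`nonempty_baseHop`: under the congruence on the trace of Frobenius at `q` there are frames at
levels `N` and `N q` for the families of primes outside the level, their lattices, and the
matrices of the hop (`BaseHop`), taken from `HopQ.nonempty_hopData`.
-/

set_option autoImplicit false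
set_option linter.unusedSectionVars false
set_option linter.style.haveILetI false

noncomputable section

open CongruenceSubgroup
open scoped MatrixGroups Matrix

namespace FLTAgent.Lower.Lift.HopAsm

open IsLocalRing (maximalIdeal ResidueField residue)
open FLTAgent.Lower FLTAgent.Lower.Levels

local notation "ℚ̄" => AlgebraicClosure ℚ
local notation "Γℚ" => (AlgebraicClosure ℚ ≃ₐ[ℚ] AlgebraicClosure ℚ)

variable {O : Type} [CommRing O] [IsDomain O] [IsDiscreteValuationRing O]
  [IsAdicComplete (maximalIdeal O) O] [Finite (ResidueField O)] [CharZero O]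
  {p : ℕ} [Fact p.Prime] {ρbar : ResidualGaloisRep (ResidueField O)} {Smin : Finset ℕ}

theorem natCast_residue_eq_zero (hp : (p : O) ∈ maximalIdeal O) : (p : ResidueField O) = 0 := by
  rw [← map_natCast (residue O), IsLocalRing.residue_eq_zero_iff]
  exact hp

/-- The residual hypotheses at the primes of a level. -/
theorem resHyp_levelPrimes (hp2 : p ≠ 2) (hp : (p : O) ∈ maximalIdeal O)
    (hres : Residual p Smin ρbar) {N : ℕ} (hSmin : Smin ⊆ N.primeFactors) :
    ResHyp p (levelPrimes p N) ρbar where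
  ne_two := hp2
  mem := Finset.mem_insert_self _ _
  char := natCast_residue_eq_zero hp
  absIrr := hres.absIrr
  det := hres.det
  big := hres.big
  unramified l hl h := hres.unramified l hl (fun hm => h (Finset.mem_insert_of_mem (hSmin hm)))
    fun he => h (he ▸ Finset.mem_insert_self _ _)

theorem level_mem_levelPrimes {M : ℕ} [NeZero M] (l : ℕ) (hl : l.Prime) (h : l ∣ M) :
    l ∈ levelPrimes p M :=
  Finset.mem_insert_of_mem (Nat.mem_primeFactors.mpr ⟨hl, h, NeZero.ne M⟩)

/-- The family of all primes outside the level. -/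
theorem awayFam_levelPrimes {M : ℕ} [NeZero M] (h : ResHyp p (levelPrimes p M) ρbar) :
    AwayFam p M (levelPrimes p M) ρbar (awPr (levelPrimes p M))
      (fun i => frobTrace ρbar i.1) id where
  pr_eq _ := rfl
  trace_eq l _ hA _ hφ := (frobTrace_eq ρbar l.1.2 (h.unramified _ l.1.2 l.2) hA hφ).symm
  p_mem := Finset.mem_insert_self _ _
  level_mem := level_mem_levelPrimes

theorem residue_comp_algebraMap : (residue O).comp (algebraMap O O) = residue O := by
  ext x
  rfl

/-- The operators of a base lattice with the full family. -/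
theorem baseLattice_act_id {M : ℕ} [NeZero M] {d : ℕ} {θ : AwayPrimes (levelPrimes p M) → ResidueField O}
    (F : Frame (1 : (ZMod M)ˣ →* Oˣ) (awPr (levelPrimes p M)) (residue O) θ d)
    (hpar : ParHyp M (awPr (levelPrimes p M)) θ)
    (hfam : AwayFam p M (levelPrimes p M) ρbar (awPr (levelPrimes p M)) θ id)
    (s : MvPolynomial (AwayIdx (levelPrimes p M)) O) :
    (baseLattice F residue_comp_algebraMap hpar hfam).act s = F.mat s := by
  rw [baseLattice_act, Algebra.algebraMap_self, MvPolynomial.map_id, MvPolynomial.rename_id,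
    AlgHom.id_apply]

variable (p) in
/-- Frames and lattices of a hop at `q`, with their matrices. -/
structure BaseHop (ρbar : ResidualGaloisRep (ResidueField O)) (N q : ℕ) [NeZero N]
    [NeZero (N * q)] [Fact q.Prime] (hqN : ¬ q ∣ N) (hqS : q ∉ levelPrimes p N)
    (h₀ : ResHyp p (levelPrimes p N) ρbar) (h₁ : ResHyp p (levelPrimes p (N * q)) ρbar) :
    Type where
  d₀ : ℕ
  d₁ : ℕ
  [neZero₀ : NeZero d₀]
  [neZero₁ : NeZero d₁]
  F₀ : Frame (1 : (ZMod N)ˣ →* Oˣ) (awPr (levelPrimes p N)) (residue O)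
    (fun i => frobTrace ρbar i.1) d₀
  F₀' : Frame (1 : (ZMod N)ˣ →* Oˣ) (awPr (levelPrimes p (N * q))) (residue O)
    (fun i => frobTrace ρbar i.1) d₀
  F₁ : Frame (1 : (ZMod (N * q))ˣ →* Oˣ) (awPr (levelPrimes p (N * q))) (residue O)
    (fun i => frobTrace ρbar i.1) d₁
  vec_eq : ∀ i, F₀'.vec i = F₀.vec i
  data : HopQ.HopData (awPr (levelPrimes p (N * q))) (residue O)
    (fun i => frobTrace ρbar i.1) hqN F₀' F₁
  mats : HopMats
    (baseLattice F₀ residue_comp_algebraMap (h₀.parHyp N _ 1 fun _ _ => rfl)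
      (awayFam_levelPrimes h₀))
    (baseLattice F₁ residue_comp_algebraMap (h₁.parHyp (N * q) _ 1 fun _ _ => rfl)
      (awayFam_levelPrimes h₁))
  tq_eq : mats.tq = (baseLattice F₀ residue_comp_algebraMap (h₀.parHyp N _ 1 fun _ _ => rfl)
      (awayFam_levelPrimes h₀)).op (awayIdx (Fact.out : q.Prime) hqS)
  π_eq : mats.π = data.π
  ι_eq : mats.ι = data.ι
  j_eq : ∀ x, mats.π *ᵥ x = 0 → ∃ y, mats.j *ᵥ y = x

attribute [instance] BaseHop.neZero₀ BaseHop.neZero₁

/-- **The base of the hop.** -/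
theorem nonempty_baseHop (hp : (p : O) ∈ maximalIdeal O) {N q : ℕ} [NeZero N] [NeZero (N * q)]
    [Fact q.Prime] (hqN : ¬ q ∣ N) (hqp : q ≠ p) (hqS : q ∉ levelPrimes p N)
    (h₀ : ResHyp p (levelPrimes p N) ρbar) (h₁ : ResHyp p (levelPrimes p (N * q)) ρbar)
    (hsys : HasSystem p N ρbar)
    (hcong : ∀ (A : ValuationSubring ℚ̄) (φ : Γℚ), A.LiesOverPrime q → A.IsFrobeniusAt φ q →
      LinearMap.trace (ResidueField O) ρbar.V (ρbar.ρ φ) ^ 2 = ((q : ResidueField O) + 1) ^ 2) :
    Nonempty (BaseHop p ρbar N q hqN hqS h₀ h₁) := by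
  classical
  have hq : q.Prime := Fact.out
  have hσ : Function.Surjective (residue O) := IsLocalRing.residue_surjective
  obtain ⟨d₀, hd₀, ⟨F₀⟩⟩ := Levels.exists_base_frame h₀ hsys
  haveI : NeZero d₀ := ⟨hd₀⟩
  have hS' : levelPrimes p (N * q) = insert q (levelPrimes p N) := by
    rw [levelPrimes, levelPrimes, Nat.primeFactors_mul (NeZero.ne N) hq.ne_zero, hq.primeFactors,
      Finset.union_comm, ← Finset.insert_eq, Finset.insert_comm]
  have hsub := levelPrimes_subset_mul p (N := N) (q := q)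
  let f : ℤ_[p] →+* O := Reps.padicHom (maximalIdeal O) hp
  obtain ⟨F₀', hvec, hmat⟩ := exists_sub_frame (θ := fun i => frobTrace ρbar i.1)
    hS' hsub hσ f h₀.ne_two h₀.char hq
    (h₁.famHyp hσ _ 1 (fun _ _ => rfl) fun i hi => absurd (Nat.dvd_one.mp hi) i.1.2.ne_one)
    hqS hqN hqp
    ((h₁.parHyp (N * q) _ 1 fun _ _ => rfl).of_dvd (dvd_mul_right N q)) hd₀ F₀
  -- the frame at level `N q`
  obtain ⟨d₁, ⟨Fk⟩⟩ := exists_frame_residual (k := ResidueField O) (L := N * q)
    (awPr (levelPrimes p (N * q))) fun i => frobTrace ρbar i.1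
  obtain ⟨F₁, -⟩ := exists_frame_lift (σ := residue O) (ψ := (1 : (ZMod (N * q))ˣ →* Oˣ))
    (h₁.famHyp hσ _ 1 (fun _ _ => rfl) (fun i hi => absurd (Nat.dvd_one.mp hi) i.1.2.ne_one))
    ⟨fun _ => by simp, by simp⟩ Fk
  obtain ⟨i₀, hi₀⟩ := HopQ.exists_eisAway (N := N) (q := q)
    (h₁.parHyp (N * q) (fun i => frobTrace ρbar i.1) 1 fun _ _ => rfl)
  obtain ⟨D⟩ := HopQ.nonempty_hopData (p := p) hqN F₀' F₁ hσ
    (fun i he => i.2 (hS'.ge (Finset.mem_insert.mpr (Or.inl he))))
    (natCast_residue_eq_zero hp) hi₀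
  haveI : NeZero d₁ := ⟨fun h => by
    subst h
    obtain ⟨s, hs⟩ := D.ι_split
    have e := congrFun (congrFun hs (⟨0, Nat.pos_of_ne_zero hd₀⟩, 0))
      (⟨0, Nat.pos_of_ne_zero hd₀⟩, 0)
    simp [Matrix.mul_apply] at e⟩
  let X₀ := baseLattice F₀ residue_comp_algebraMap (h₀.parHyp N _ 1 fun _ _ => rfl)
    (awayFam_levelPrimes h₀)
  let X₁ := baseLattice F₁ residue_comp_algebraMap (h₁.parHyp (N * q) _ 1 fun _ _ => rfl)
    (awayFam_levelPrimes h₁)
  have hX₀ : ∀ s, X₀.act (MvPolynomial.rename (HeckeLattice.awayMap hsub) s) = F₀'.mat s :=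
    fun s => by
      rw [hmat]
      exact baseLattice_act_id F₀ _ _ _
  have hX₁ : ∀ s, X₁.act s = F₁.mat s := baseLattice_act_id F₁ _ _
  have hTq : D.Tq = X₀.act (MvPolynomial.X (awayIdx hq hqS)) := by
    rw [show X₀.act (MvPolynomial.X (awayIdx hq hqS)) = F₀.mat (MvPolynomial.X (awayIdx hq hqS))
      from baseLattice_act_id F₀ _ _ _]
    have hc : ∀ c, F₀'.combo c = F₀.combo c := fun c => by
      rw [Frame.combo, Frame.combo, show F₀'.vec = F₀.vec from funext hvec]
    refine F₀.mat_unique fun c => ?_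
    rw [← hc, D.combo_Tq, hc, F₀.combo_mat, famAct_X]
  obtain ⟨t, ht⟩ := D.j_split
  exact ⟨{
    d₀ := d₀, d₁ := d₁, F₀ := F₀, F₀' := F₀', F₁ := F₁, vec_eq := hvec, data := D
    mats :=
      { dNew := D.dNew, ι := D.ι, π := D.π, j := D.j, t := t
        π_surjective := D.π_surjective, ι_split := D.ι_split, t_j := ht, π_j := D.π_j
        exact := D.exact
        ι_comm := fun s => by rw [hX₁, hX₀]; exact D.ι_comm s
        π_comm := fun s => by rw [hX₁, hX₀]; exact D.π_comm s
        tq := X₀.op (awayIdx hq hqS)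
        π_ι := by
          rw [show imgAct X₀.act (X₀.op (awayIdx hq hqS)) = D.Tq by
            rw [hTq, HeckeLattice.op, imgGen, imgAct_mk]]
          exact D.π_ι
        π_ι_ne_zero := D.π_ι_ne_zero
        det_mem := det_hopE_mem_of_residual X₀ hq hqS (by
          obtain ⟨A, hA, φ, hφ⟩ := GalCommon.exists_place_frobenius hq
          rw [← X₀.trace_eq (awayIdx hq hqS) A hA φ hφ]
          exact hcong A φ hA hφ) }
    tq_eq := rfl, π_eq := rfl, ι_eq := rfl, j_eq := D.exact }⟩

end FLTAgent.Lower.Lift.HopAsm
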