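import Fermat.Agent.Lower.Lift.HopAsm.AuxLevels
import Fermat.Agent.Lower.Lift.HeckeMod.Contains
import Fermat.Agent.Lower.Lift.HopTW.Special
import Fermat.Agent.Lower.Lift.OrdCond
import Fermat.Agent.Lower.Lift.Defs

/-!
# Raising a prime `q ≠ p`

`exists_hop_of_ne`: a hop from squarefree level `N` to `N q`, modular on both sides, containing
every module of level `N` and extending to every auxiliary set.  It combines the base hop, the
auxiliary levels, and the local conditions of the representations on their lattices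
(`cond_base`, `cond_aux`).
-/

set_option autoImplicit false
set_option linter.unusedSectionVars false
set_option linter.style.haveILetI false

noncomputable section

open CongruenceSubgroup
open scoped MatrixGroups Matrix

namespace FLTAgent.Lower.Lift.HopAsm

open IsLocalRing (maximalIdeal ResidueField residue)
open FLTAgent.Lower FLTAgent.Lower.Levels

local notation "ℚ̄" => AlgebraicClosure ℚ
local notation "Γℚ" => (AlgebraicClosure ℚ ≃ₐ[ℚ] AlgebraicClosure ℚ)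

variable {O : Type} [CommRing O] [IsDomain O] [IsDiscreteValuationRing O]
  [IsAdicComplete (maximalIdeal O) O] [Finite (ResidueField O)] [CharZero O]
  {p : ℕ} [Fact p.Prime] {ρbar : ResidualGaloisRep (ResidueField O)}

/-- The case at `p` of a multiple of the level. -/
theorem levelCase_mul {N q : ℕ} {loc : LocalType} (hq : q.Prime) (hqp : q ≠ p)
    (h : LevelCase p N ρbar loc) : LevelCase p (N * q) ρbar loc := by
  cases h with
  | flat hN =>
    exact .flat fun hd => ((Fact.out : p.Prime).dvd_mul.mp hd).elim hN fun h' =>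
      hqp ((Nat.prime_dvd_prime_iff_eq Fact.out hq).mp h').symm
  | ord hN hno => exact .ord (hN.mul_right q) hno

theorem levelPrimes_dvd {M : ℕ} [NeZero M] : ∀ l : ℕ, l.Prime → l ∣ M → l ∈ levelPrimes p M :=
  level_mem_levelPrimes

section Cases

variable {M : ℕ} [NeZero M] {f : ℤ_[p] →+* O} {loc : LocalType}

/-- The condition of a lattice at the level. -/
theorem cond_base (hp : (p : O) ∈ maximalIdeal O) (h : ResHyp p (levelPrimes p M) ρbar)
    (hM : Squarefree M) (hlc : LevelCase p M ρbar loc) {S : Finset ℕ} {d : ℕ} [NeZero d]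
    (X : HeckeLattice p M S ρbar O d)
    (hX : ∀ x, ∃ z ∈ h1Part (1 : (ZMod M)ˣ →* Oˣ) (awPr (levelPrimes p M)) (residue O)
        (fun l => frobTrace ρbar l.1) O,
      h1Triv M O O z = (X.emb x : Additive (Gamma0 M) →+ O))
    {ρ : GaloisRepAdic X.T} (hρ : X.IsRep f ρ) : Cond loc p (unipPrimes p M) S ρ :=
  cond_of_levelCase hp h.ne_two hρ h.absIrr hlc id
    (fun l hl hd _ => ⟨hd, fun h2 => hl.not_isUnit (hM l (sq l ▸ h2))⟩)
    fun hd hno => ord_of_noSystem hp h hno hM hd level_mem_levelPrimes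
      IsLocalRing.residue_surjective X hX hρ

variable {n r : ℕ} {Qv : Fin r → ℕ} [NeZero (∏ i, Qv i)]
  [NeZero (M * (∏ i, Qv i) * ∏ i, Qv i)]

/-- The condition at the primes of the level at an auxiliary level. -/
theorem unip_aux (hM : Squarefree M) (hQ : AuxHyp p n (levelPrimes p M) ρbar Qv) {l : ℕ}
    (hl : l.Prime) (hd : l ∣ M) :
    l ∣ M * (∏ i, Qv i) * ∏ i, Qv i ∧ ¬ l ^ 2 ∣ M * (∏ i, Qv i) * ∏ i, Qv i := by
  refine ⟨(hd.mul_right _).mul_right _, ?_⟩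
  rw [mul_assoc]
  refine not_sq_dvd_mul hl hM fun h => ?_
  obtain ⟨i, hi⟩ := hQ.exists_eq hl ((hl.dvd_mul.mp h).elim id id)
  exact hQ.notMem i (hi ▸ level_mem_levelPrimes l hl hd)

theorem not_dvd_aux_level (h : ResHyp p (levelPrimes p M) ρbar)
    (hQ : AuxHyp p n (levelPrimes p M) ρbar Qv) (hpM : ¬ p ∣ M) :
    ¬ p ∣ M * (∏ i, Qv i) * ∏ i, Qv i := fun hd => by
  have hQ' : ¬ p ∣ ∏ i, Qv i := fun h' => by
    obtain ⟨i, hi⟩ := hQ.exists_eq Fact.out h'
    exact hQ.ne_p h.mem i hi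
  rcases (Fact.out : p.Prime).dvd_mul.mp hd with hd | hd
  · exact ((Fact.out : p.Prime).dvd_mul.mp hd).elim hpM hQ'
  · exact hQ' hd

/-- The condition of a lattice at an auxiliary level. -/
theorem cond_aux (hp : (p : O) ∈ maximalIdeal O) [IsLocalRing (DeltaRing O p n r)]
    (h : ResHyp p (levelPrimes p M) ρbar) (hM : Squarefree M) (hlc : LevelCase p M ρbar loc)
    (hQ : AuxHyp p n (levelPrimes p M) ρbar Qv)
    {θ' : AwayPrimes (levelPrimes p M) → ResidueField O} (hθ : StabEig ρbar (∏ i, Qv i) θ')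
    {η : (ZMod (∏ i, Qv i))ˣ →* (DeltaRing O p n r)ˣ} (hη : EtaHyp O p n Qv η)
    {S : Finset ℕ} {d : ℕ} [NeZero d]
    (Y : HeckeLattice p (M * (∏ i, Qv i) * ∏ i, Qv i) S ρbar (DeltaRing O p n r) d)
    (hY : ∀ x, ∃ z ∈ h1Part (twistChar (dvd_mul_left (∏ i, Qv i) M) η)
        (awPr (levelPrimes p M)) (deltaRes p n r) θ' (DeltaRing O p n r),
      h1Triv (M * (∏ i, Qv i) * ∏ i, Qv i) (DeltaRing O p n r) (DeltaRing O p n r)
          (twistMap (dvd_mul_left (∏ i, Qv i) M) η z) =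
        (Y.emb x : Additive (Gamma0 (M * (∏ i, Qv i) * ∏ i, Qv i)) →+ DeltaRing O p n r))
    {ρ : GaloisRepAdic Y.T} (hρ : Y.IsRep f ρ) : Cond loc p (unipPrimes p M) S ρ := by
  haveI := isAdicComplete_deltaRing (O := O) p n r hp
  haveI : IsNoetherianRing (DeltaRing O p n r) := IsNoetherianRing.of_finite O _
  exact cond_of_levelCase hp h.ne_two hρ h.absIrr hlc (not_dvd_aux_level h hQ)
    (fun l hl hd _ => unip_aux hM hQ hl hd)
    fun hd hno => ord_aux_of_noSystem hp h hno hM hd level_mem_levelPrimes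
      (deltaRes_surjective (O := O) p n r) hQ hθ hη.residual Y hY hρ

end Cases

variable {Smin : Finset ℕ}

/-- **Raising `q ≠ p`.** -/
theorem exists_hop_of_ne (hp2 : p ≠ 2) (hp : (p : O) ∈ maximalIdeal O)
    (hres : Residual p Smin ρbar) {N : ℕ} [NeZero N] (hN : Squarefree N)
    (hSmin : Smin ⊆ N.primeFactors) {loc : LocalType} (hloc : LevelCase p N ρbar loc)
    (hsys : HasSystem p N ρbar) {q : ℕ} [NeZero (N * q)] (hq : q.Prime) (hqN : ¬ q ∣ N)
    (hqp : q ≠ p)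
    (hcong : ∀ (A : ValuationSubring ℚ̄) (φ : Γℚ), A.LiesOverPrime q → A.IsFrobeniusAt φ q →
      LinearMap.trace (ResidueField O) ρbar.V (ρbar.ρ φ) ^ 2 = ((q : ResidueField O) + 1) ^ 2) :
    ∃ H : Hop loc loc p N q ρbar,
      IsModular N H.old ∧ IsModular (N * q) H.new ∧
      (∀ (loc' : LocalType) (B' : HeckeMod loc' p (levelPrimes p N) (unipPrimes p N) ρbar),
        IsModular N B' → Contains H.old B') ∧
      ∀ (n r : ℕ) (Qv : Fin r → ℕ), IsAuxSet p (N * q) n ρbar Qv →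
        Nonempty (HopLevel H n Qv) := by
  classical
  haveI : Fact q.Prime := ⟨hq⟩
  have hqS : q ∉ levelPrimes p N := fun h => (Finset.mem_insert.mp h).elim hqp fun h' =>
    hqN (Nat.dvd_of_mem_primeFactors h')
  have hsub := levelPrimes_subset_mul p (N := N) (q := q)
  have h₀ := resHyp_levelPrimes hp2 hp hres hSmin
  have h₁ := resHyp_levelPrimes hp2 hp hres (N := N * q)
    (hSmin.trans (Nat.primeFactors_mono (dvd_mul_right N q) (NeZero.ne _)))
  have hN₁ : Squarefree (N * q) :=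
    (Nat.squarefree_mul (hq.coprime_iff_not_dvd.mpr hqN).symm).mpr ⟨hN, hq.squarefree⟩
  have hloc₁ := levelCase_mul hq hqp hloc
  obtain ⟨B⟩ := nonempty_baseHop hp hqN hqp hqS h₀ h₁ hsys hcong
  let f : ℤ_[p] →+* O := Reps.padicHom (maximalIdeal O) hp
  let X₀ := baseLattice B.F₀ residue_comp_algebraMap (h₀.parHyp N _ 1 fun _ _ => rfl)
    (awayFam_levelPrimes h₀)
  let X₁ := baseLattice B.F₁ residue_comp_algebraMap (h₁.parHyp (N * q) _ 1 fun _ _ => rfl)
    (awayFam_levelPrimes h₁)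
  obtain ⟨ρ₀, r₀⟩ := X₀.exists_rep hp2 hp f hres.absIrr hres.det
  obtain ⟨ρ₁, r₁⟩ := X₁.exists_rep hp2 hp f hres.absIrr hres.det
  obtain ⟨ρ₂, r₂⟩ := B.mats.new.exists_rep hp2 hp f hres.absIrr hres.det
  have c₀ : Cond loc p (unipPrimes p N) (levelPrimes p N) ρ₀ := cond_base hp h₀ hN hloc X₀
    (fun x => ⟨B.F₀.combo x, B.F₀.combo_mem x, rfl⟩) r₀
  have c₁ : Cond anyType p (unipPrimes p (N * q)) (levelPrimes p (N * q)) ρ₁ :=
    cond_of_isRep r₁ hres.absIrr trivial fun l hl => by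
      obtain ⟨a, b, c⟩ := prime_of_mem_unipPrimes hl
      exact ⟨a, b, c, fun h2 => a.not_isUnit (hN₁ l (sq l ▸ h2))⟩
  have c₂ : Cond loc p (unipPrimes p (N * q)) (levelPrimes p (N * q)) ρ₂ :=
    cond_base hp h₁ hN₁ hloc₁ B.mats.new
      (fun x => ⟨B.F₁.combo (B.mats.j *ᵥ x), B.F₁.combo_mem _, rfl⟩) r₂
  have hdiv : q ≠ p → DivBySpecial q ρ₀ (hopE q B.mats.tq).det := fun _ => by
    rw [B.tq_eq]
    exact divBySpecial_hopE r₀ hq hqS
  have hsp : q ≠ p → IsSpecial q ρ₂ := fun _ =>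
    isSpecial_of_betaMap hqN hqp f r₂.attached (imgAct B.mats.new.act)
      (imgAct_injective B.mats.new.act) B.mats.new.emb B.mats.new.emb_injective r₂.galH_rel
      fun x => betaMap_eq_zero_of_piQ hqN (z := B.F₁.combo (B.mats.j *ᵥ x)) rfl (by
        rw [B.data.combo_π, ← B.π_eq, Matrix.mulVec_mulVec, B.mats.π_j, Matrix.zero_mulVec]
        exact Prod.ext (map_zero B.F₀'.combo) (map_zero B.F₀'.combo))
  refine ⟨B.mats.hop hres.absIrr r₀ c₀ r₁ c₁ r₂ c₂ hdiv hsp,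
    isModular_heckeModOf hN hp hres.absIrr r₀ c₀,
    isModular_heckeModOf hN₁ hp hres.absIrr r₂ c₂,
    fun loc' B' hB' => contains_heckeModOf h₀ r₀ c₀ B.F₀
      (fun s hs => (baseLattice_act_id B.F₀ _ _ s).symm.trans hs) B' hB', ?_⟩
  intro n r Qv hset
  obtain ⟨hinj, hTW⟩ := hset
  have hQ : AuxHyp p n (levelPrimes p (N * q)) ρbar Qv :=
    ⟨hinj, fun i => (hTW i).1, fun i => (hTW i).2⟩
  have hQ₀ := auxHyp_of_subset hsub hQ
  haveI : NeZero (∏ i, Qv i) := ⟨hQ.prod_ne_zero⟩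
  haveI : NeZero (N * ∏ i, Qv i) := ⟨mul_ne_zero (NeZero.ne N) (NeZero.ne _)⟩
  haveI : NeZero (N * q * ∏ i, Qv i) := ⟨mul_ne_zero (NeZero.ne (N * q)) (NeZero.ne _)⟩
  haveI : NeZero (N * (∏ i, Qv i) * ∏ i, Qv i) :=
    ⟨mul_ne_zero (NeZero.ne (N * ∏ i, Qv i)) (NeZero.ne _)⟩
  haveI : NeZero (N * q * (∏ i, Qv i) * ∏ i, Qv i) :=
    ⟨mul_ne_zero (NeZero.ne (N * q * ∏ i, Qv i)) (NeZero.ne _)⟩
  haveI := isLocalRing_deltaRing (O := O) p n r hp
  haveI := isAdicComplete_deltaRing (O := O) p n r hp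
  haveI : IsNoetherianRing (DeltaRing O p n r) := IsNoetherianRing.of_finite O _
  obtain ⟨θ', hθ⟩ := hQ₀.exists_stabEig h₀
  have hθ₁ := stabEig_comp hsub hθ
  obtain ⟨η, hη⟩ := hQ.exists_eta
  obtain ⟨φ, hφgen, hφ⟩ := exists_deltaQuot (O := O) p n r
  obtain ⟨E₀⟩ := nonempty_auxFrames hp f h₀ level_mem_levelPrimes hQ₀ hθ hη (NeZero.ne B.d₀) B.F₀
  obtain ⟨E₁⟩ := nonempty_auxFrames hp f h₁ level_mem_levelPrimes hQ hθ₁ hη (NeZero.ne B.d₁) B.F₁
  obtain ⟨E, htq, hkill⟩ := exists_levelMats hp hqp B hQ hθ hη E₀ E₁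
  obtain ⟨K⟩ := E.nonempty_ker
  let Y₀ := E₀.lattice hp h₀ level_mem_levelPrimes hQ₀ hθ hη
  let Y₁ := E₁.lattice hp h₁ level_mem_levelPrimes hQ hθ₁ hη
  obtain ⟨s₀, k₀⟩ := Y₀.exists_rep hp2 hp f hres.absIrr hres.det
  obtain ⟨s₁, k₁⟩ := Y₁.exists_rep hp2 hp f hres.absIrr hres.det
  obtain ⟨s₂, k₂⟩ := K.new.exists_rep hp2 hp f hres.absIrr hres.det
  have e₀ : Cond loc p (unipPrimes p N) (levelPrimes p N ∪ Finset.univ.image Qv) s₀ :=
    cond_aux hp h₀ hN hloc hQ₀ hθ hη Y₀ (fun x => ⟨E₀.F.combo x, E₀.F.combo_mem x,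
      (E₀.coe_lattice_emb hp h₀ level_mem_levelPrimes hQ₀ hθ hη x).symm⟩) k₀
  have e₁ : Cond anyType p (unipPrimes p (N * q))
      (levelPrimes p (N * q) ∪ Finset.univ.image Qv) s₁ :=
    cond_of_isRep k₁ hres.absIrr trivial fun l hl => by
      obtain ⟨a, b, c⟩ := prime_of_mem_unipPrimes hl
      exact ⟨a, b, unip_aux hN₁ hQ a c⟩
  have hemb₂ : ∀ x, (K.new.emb x :
      Additive (Gamma0 (N * q * (∏ i, Qv i) * ∏ i, Qv i)) →+ DeltaRing O p n r) =
      h1Triv (N * q * (∏ i, Qv i) * ∏ i, Qv i) (DeltaRing O p n r) (DeltaRing O p n r)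
        (twistMap (dvd_mul_left (∏ i, Qv i) (N * q)) η (E₁.F.combo (K.j *ᵥ x))) :=
    fun x => E₁.coe_lattice_emb hp h₁ level_mem_levelPrimes hQ hθ₁ hη _
  have e₂ : Cond loc p (unipPrimes p (N * q))
      (levelPrimes p (N * q) ∪ Finset.univ.image Qv) s₂ :=
    cond_aux hp h₁ hN₁ hloc₁ hQ hθ₁ hη K.new (fun x => ⟨E₁.F.combo (K.j *ᵥ x),
      E₁.F.combo_mem _, (hemb₂ x).symm⟩) k₂
  have hdivn : q ≠ p → DivBySpecial q s₀ (hopE q E.tq).det := fun _ => by
    rw [htq]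
    exact divBySpecial_hopE k₀ hq (notMem_union hqS hQ)
  have hspn : q ≠ p → IsSpecial q s₂ := fun _ => by
    have hqQ : ¬ q ∣ N * ∏ i, Qv i := fun h => by
      rcases hq.dvd_mul.mp h with h | h
      · exact hqN h
      · obtain ⟨i, hi⟩ := hQ.exists_eq hq h
        exact notMem_union hqS hQ (Finset.mem_union_right _
          (Finset.mem_image.mpr ⟨i, Finset.mem_univ i, hi⟩))
    have hr : HopTW.IsRaise (N * ∏ i, Qv i) (N * q * ∏ i, Qv i) q := ⟨hq, hqQ, by ring⟩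
    have hr' := hr.mul_aux (dvd_mul_left (∏ i, Qv i) N)
    exact HopTW.isSpecial_of_cor f hr' hqp k₂.attached (imgAct K.new.act)
      (imgAct_injective K.new.act) K.new.emb K.new.emb_injective k₂.galH_rel
      fun x => ⟨_, hemb₂ x, hkill (K.j *ᵥ x)
        (by rw [Matrix.mulVec_mulVec, K.π_j, Matrix.zero_mulVec]) hr'⟩
  exact ⟨K.hopLevel hφ hres.absIrr r₀ c₀ r₁ c₁ r₂ c₂ hdiv hsp k₀ e₀
    (E₀.tw_rel hp h₀ level_mem_levelPrimes hQ₀ hθ hη s₀ k₀ hφgen) k₁ e₁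
    (E₁.tw_rel hp h₁ level_mem_levelPrimes hQ hθ₁ hη s₁ k₁ hφgen) k₂ e₂ hdivn hspn⟩

end FLTAgent.Lower.Lift.HopAsm
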