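import Fermat.Agent.Lower.Levels.Construct
import Fermat.Agent.Lower.Lift.HopQ.Coord
import Fermat.Agent.Lower.Lift.HopTW.Split

/-!
# The linear algebra of a hop

The composite `hopE q t = [[q + 1, t], [t, q + 1]]` of the two degeneracy matrices and its
determinant (`det_hopE`, `det_hopE_eq`, `isUnit_det_of_iso`), cancellation along split maps, and
the lattice on the image of a split stable matrix (`subLattice`).
-/

set_option autoImplicit false
set_option linter.unusedSectionVars false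

noncomputable section

open scoped Matrix

namespace FLTAgent.Lower.Lift.HopAsm

open FLTAgent.Lower.Levels

section Algebra

variable {R : Type} [CommRing R] {d₀ d₁ d₂ : ℕ}

/-- A matrix vanishing after a surjection is zero. -/
theorem eq_zero_of_blockDiagonal_mul {A : Matrix (Fin d₀) (Fin d₀) R}
    {π : Matrix (Fin d₀ × Fin 2) (Fin d₁) R}
    (hπ : ∃ s : Matrix (Fin d₁) (Fin d₀ × Fin 2) R, π * s = 1)
    (h : (Matrix.blockDiagonal fun _ : Fin 2 => A) * π = 0) : A = 0 := by
  obtain ⟨s, hs⟩ := hπ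
  have h1 : (Matrix.blockDiagonal fun _ : Fin 2 => A) = 0 := by
    rw [← Matrix.mul_one (Matrix.blockDiagonal _), ← hs, ← Matrix.mul_assoc, h, Matrix.zero_mul]
  ext i i'
  have h2 := congrFun (congrFun h1 (i, 0)) (i', 0)
  rwa [Matrix.blockDiagonal_apply_eq] at h2

/-- A matrix vanishing after a split injection is zero. -/
theorem eq_zero_of_mul_eq_zero {n : Type} {A : Matrix (Fin d₂) n R}
    {j : Matrix (Fin d₁) (Fin d₂) R} {t : Matrix (Fin d₂) (Fin d₁) R} (htj : t * j = 1)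
    (h : j * A = 0) : A = 0 := by
  rw [← Matrix.one_mul A, ← htj, Matrix.mul_assoc, h, Matrix.mul_zero]

/-- Cancelling a split injection. -/
theorem mul_left_cancel_of_split {n : Type} {A B : Matrix (Fin d₂) n R}
    {j : Matrix (Fin d₁) (Fin d₂) R} {t : Matrix (Fin d₂) (Fin d₁) R} (htj : t * j = 1)
    (h : j * A = j * B) : A = B := by
  rw [← Matrix.one_mul A, ← htj, Matrix.mul_assoc, h, ← Matrix.mul_assoc, htj, Matrix.one_mul]

variable {O T : Type} [CommRing O] [CommRing T] [Algebra O T] [Algebra O R]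

/-- The composite `[[q + 1, t], [t, q + 1]]`. -/
def hopE (q : ℕ) (t : T) : Matrix (Fin 2) (Fin 2) T := !![(q : T) + 1, t; t, (q : T) + 1]

theorem det_hopE (q : ℕ) (t : T) : (hopE q t).det = ((q : T) + 1) ^ 2 - t ^ 2 := by
  rw [hopE, Matrix.det_fin_two_of]
  ring

theorem map_hopE (Φ : T →ₐ[O] Matrix (Fin d₀) (Fin d₀) R) (q : ℕ) (t : T) (b b' : Fin 2) :
    Φ (hopE q t b b') = HopQ.eMat ((q : R) + 1) (Φ t) b b' := by
  have h : Φ ((q : T) + 1) = ((q : R) + 1) • (1 : Matrix (Fin d₀) (Fin d₀) R) := by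
    rw [map_add, map_natCast, map_one, add_smul, one_smul, Nat.cast_smul_eq_nsmul, nsmul_one]
  fin_cases b <;> fin_cases b' <;> simp [hopE, HopQ.eMat, h]

/-- The composite of the two degeneracy matrices has the determinant of the image of `det e`. -/
theorem det_hopE_eq (Φ : T →ₐ[O] Matrix (Fin d₀) (Fin d₀) R) (q : ℕ) (t : T) :
    (Matrix.of fun a b : Fin d₀ × Fin 2 => Φ (hopE q t a.2 b.2) a.1 b.1).det =
      (Φ (hopE q t).det).det := by
  have h := Matrix.det_det (n := Fin d₀) (hopE q t) (Φ : T →+* Matrix (Fin d₀) (Fin d₀) R)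
  rw [show (Φ (hopE q t).det).det = ((Φ : T →+* Matrix (Fin d₀) (Fin d₀) R) (hopE q t).det).det
    from rfl, h, ← Matrix.det_reindex_self (Equiv.prodComm (Fin 2) (Fin d₀))
      (Matrix.comp (Fin 2) (Fin 2) (Fin d₀) (Fin d₀) R
        ((hopE q t).map (Φ : T →+* Matrix (Fin d₀) (Fin d₀) R)))]
  rfl

/-- If `π ι` is invertible so is `det e`. -/
theorem isUnit_det_of_iso (Φ : T →ₐ[O] Matrix (Fin d₀) (Fin d₀) O) (hΦ : Function.Injective Φ)
    (q : ℕ) (t : T) {π : Matrix (Fin d₀ × Fin 2) (Fin d₁) O}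
    {ι : Matrix (Fin d₁) (Fin d₀ × Fin 2) O} [Nontrivial O]
    (hπ : ∃ s : Matrix (Fin d₁) (Fin d₀ × Fin 2) O, π * s = 1)
    (hι : ∃ s : Matrix (Fin d₀ × Fin 2) (Fin d₁) O, s * ι = 1)
    (hinj : ∀ x : Fin d₁ → O, π *ᵥ x = 0 → x = 0)
    (hπι : π * ι = Matrix.of fun a b => Φ (hopE q t a.2 b.2) a.1 b.1) :
    IsUnit (hopE q t).det := by
  obtain ⟨s, hs⟩ := hπ
  obtain ⟨s', hs'⟩ := hι
  have hsπ : s * π = 1 := Matrix.ext_iff_mulVec.mpr fun x => by
    rw [Matrix.one_mulVec, ← sub_eq_zero]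
    refine hinj _ ?_
    rw [Matrix.mulVec_sub, Matrix.mulVec_mulVec, ← Matrix.mul_assoc, hs, Matrix.one_mul, sub_self]
  let L : (Fin d₁ → O) ≃ₗ[O] (Fin d₀ × Fin 2 → O) :=
    LinearEquiv.ofLinearMap π.mulVecLin s.mulVecLin
      (by rw [← Matrix.mulVecLin_mul, hs, Matrix.mulVecLin_one])
      (by rw [← Matrix.mulVecLin_mul, hsπ, Matrix.mulVecLin_one])
  have hcard : Fintype.card (Fin d₁) = Fintype.card (Fin d₀ × Fin 2) := by
    have h := L.finrank_eq
    rwa [Module.finrank_fintype_fun_eq_card, Module.finrank_fintype_fun_eq_card] at h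
  have hιs : ι * s' = 1 := (Matrix.mul_eq_one_comm_of_equiv (Fintype.equivOfCardEq hcard.symm)).mp hs'
  have hu : IsUnit (π * ι) := by
    refine IsUnit.of_mul_eq_one (s' * s) ?_
    rw [Matrix.mul_assoc, ← Matrix.mul_assoc ι, hιs, Matrix.one_mul, hs]
  refine HopTW.isUnit_of_isUnit_matrix Φ hΦ ?_
  rw [Matrix.isUnit_iff_isUnit_det, ← det_hopE_eq, ← hπι, ← Matrix.isUnit_iff_isUnit_det]
  exact hu

end Algebra

section Sub

variable {O : Type} [CommRing O] [IsLocalRing O] [IsNoetherianRing O] {p N : ℕ} [NeZero N]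
  {S : Finset ℕ}
  {ρbar : ResidualGaloisRep (IsLocalRing.ResidueField O)} {R : Type} [CommRing R] [Algebra O R]
  [Module.Finite O R] [Nontrivial R] {d d₂ : ℕ} [NeZero d] [NeZero d₂]

/-- The lattice on the image of a split stable matrix. -/
def subLattice (X : HeckeLattice p N S ρbar R d) (j : Matrix (Fin d) (Fin d₂) R)
    (t : Matrix (Fin d₂) (Fin d) R) (htj : t * j = 1)
    (hst : ∀ s, j * (t * (X.act s * j)) = X.act s * j) : HeckeLattice p N S ρbar R d₂ where
  act := HopTW.subAct X.act j t htj hst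
  emb := X.emb ∘ₗ j.mulVecLin
  emb_injective := X.emb_injective.comp fun x y h => by
    have h1 := congrArg (t *ᵥ ·) (show j *ᵥ x = j *ᵥ y from h)
    simpa [Matrix.mulVec_mulVec, htj] using h1
  emb_X := fun l x => by
    show HeckeH.heckeH N l.1.2 R R (X.emb (j *ᵥ x)) =
      X.emb (j *ᵥ (HopTW.subAct X.act j t htj hst (MvPolynomial.X l) *ᵥ x))
    rw [X.emb_X, Matrix.mulVec_mulVec, Matrix.mulVec_mulVec,
      HopTW.act_mul_eq_subAct X.act j t htj hst]
  θ := X.θ
  unitAway := by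
    have : Module.Finite O (Matrix (Fin d) (Fin d) R) :=
      inferInstanceAs (Module.Finite O (Fin d → Fin d → R))
    exact HopTW.unitAway_subAct X.act j t htj hst X.unitAway
  trace_eq := X.trace_eq
  p_mem := X.p_mem
  level_mem := X.level_mem

theorem subLattice_act_mul (X : HeckeLattice p N S ρbar R d) (j : Matrix (Fin d) (Fin d₂) R)
    (t : Matrix (Fin d₂) (Fin d) R) (htj : t * j = 1)
    (hst : ∀ s, j * (t * (X.act s * j)) = X.act s * j) (s : MvPolynomial (AwayIdx S) O) :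
    X.act s * j = j * (subLattice X j t htj hst).act s :=
  HopTW.act_mul_eq_subAct X.act j t htj hst s

end Sub

end FLTAgent.Lower.Lift.HopAsm
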